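import Fermat.Agent.S43.EV.Abs

/-!
# S43 / EV / Centre : (KUM)+(EV) with a centre map

`c : Place K F → ι` any `σ`-invariant map ("centre on a model"), `A` a valuation subring of `K`; for every place `v` in the support of `Dx` a
`σ`-invariant LOCAL GENERATOR `y` : `y ^ e * f` has order `0` and a value in `Aˣ` at every place with the same centre as `v`.
`σ` fixes the `e`-th roots of the `σ`-invariant units of `A`.   THEN `e1 (σ h / h) f = 1` whenever `div h = e D' - Dx`, `σ Dx = Dx`.
-/

set_option autoImplicit false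

namespace Fermat.Agent.S43.EV

open AlgebraicCurve Fermat.Agent.S26 Fermat.Agent.S37.Red Fermat.Agent.S15.W

variable {K F : Type*} [Field K] [Field F] [Algebra K F] [IsAlgClosed K] [CharZero K] [FF1 K F]
variable {e : ℕ}

/-- `z` is a unit of `A`. -/
def UnitA (A : ValuationSubring K) (z : K) : Prop := z ∈ A ∧ z⁻¹ ∈ A

omit [IsAlgClosed K] [CharZero K] in
theorem UnitA.mul {A : ValuationSubring K} {z w : K} (hz : UnitA A z) (hw : UnitA A w) :
    UnitA A (z * w) := ⟨mul_mem hz.1 hw.1, by rw [mul_inv]; exact mul_mem hz.2 hw.2⟩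

omit [IsAlgClosed K] [CharZero K] in
theorem UnitA.inv {A : ValuationSubring K} {z : K} (hz : UnitA A z) : UnitA A z⁻¹ :=
  ⟨hz.2, by rw [inv_inv]; exact hz.1⟩

omit [IsAlgClosed K] [CharZero K] in
theorem unitA_one (A : ValuationSubring K) : UnitA A 1 := ⟨A.one_mem, by rw [inv_one]; exact A.one_mem⟩

omit [IsAlgClosed K] [CharZero K] in
theorem UnitA.zpow {A : ValuationSubring K} {z : K} (hz : UnitA A z) (n : ℤ) : UnitA A (z ^ n) := by
  obtain ⟨m, rfl | rfl⟩ := n.eq_nat_or_neg
  · rw [zpow_natCast]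
    exact ⟨pow_mem hz.1 m, by rw [← inv_pow]; exact pow_mem hz.2 m⟩
  · rw [zpow_neg, zpow_natCast]
    exact ⟨by rw [← inv_pow]; exact pow_mem hz.2 m, by rw [inv_inv]; exact pow_mem hz.1 m⟩

omit [IsAlgClosed K] [CharZero K] in
theorem unitA_prod {A : ValuationSubring K} {ι : Type*} (s : Finset ι) (z : ι → K)
    (h : ∀ i ∈ s, UnitA A (z i)) : UnitA A (∏ i ∈ s, z i) := by
  classical
  induction s using Finset.induction_on with
  | empty => simpa using unitA_one A
  | insert a s ha ih =>
    rw [Finset.prod_insert ha]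
    exact (h a (Finset.mem_insert_self a s)).mul (ih fun i hi => h i (Finset.mem_insert_of_mem hi))

/-- **(KUM)+(EV) with a centre map.** -/
theorem kum_centre (he : e ≠ 0) (A : ValuationSubring K) (σ : SemilinearAut K F)
    (hroot : ∀ c : K, UnitA A (c ^ e) → SemilinearAut.baseAut σ (c ^ e) = c ^ e →
      SemilinearAut.baseAut σ c = c)
    {f h : F} (hf : IsDm K e f) (hσf : σ • f = f) (hh : h ≠ 0) (D' Dx : Divisor K F)
    (hσDx : σ • Dx = Dx) (hdiv : divisorOf (Ω := K) h = (e : ℤ) • D' - Dx)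
    {ι : Type*} (c : Place K F → ι) (hc : ∀ v, c (σ • v) = c v)
    (hloc : ∀ v, Dx v ≠ 0 → ∃ y : F, y ≠ 0 ∧ σ • y = y ∧
      ∀ w, c w = c v → w.ord (y ^ e * f) = 0 ∧ UnitA A (val w (y ^ e * f))) :
    e1 K e (σ • h / h) f = 1 := by
  classical
  set s : Finset ι := Dx.support.image c with hs
  set D : ι → Divisor K F := fun i => Dx.filter (fun v => c v = i) with hDdef
  have hsum : Dx = ∑ i ∈ s, D i := by
    ext v
    rw [Finsupp.finsetSum_apply]
    by_cases hv : Dx v = 0
    · rw [hv]
      symm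
      refine Finset.sum_eq_zero fun i _ => ?_
      simp only [hDdef, Finsupp.filter_apply]
      split_ifs
      · exact hv
      · rfl
    · have hmem : c v ∈ s := Finset.mem_image_of_mem c (Finsupp.mem_support_iff.2 hv)
      rw [Finset.sum_eq_single_of_mem (c v) hmem]
      · simp only [hDdef, Finsupp.filter_apply, if_true]
      · intro i _ hi
        simp only [hDdef, Finsupp.filter_apply]
        rw [if_neg (fun h => hi h.symm)]
  have hσD : ∀ i ∈ s, σ • D i = D i := by
    intro i _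
    ext v
    rw [SemilinearAut.divisor_smul_apply]
    simp only [hDdef, Finsupp.filter_apply]
    have h1 : c (σ⁻¹ • v) = c v := by
      have := hc (σ⁻¹ • v)
      rw [smul_inv_smul] at this
      exact this.symm
    have h2 : Dx (σ⁻¹ • v) = Dx v := by
      have := DFunLike.congr_fun hσDx v
      rwa [SemilinearAut.divisor_smul_apply] at this
    rw [h1, h2]
  have hex : ∀ i, i ∈ s → ∃ y : F, y ≠ 0 ∧ σ • y = y ∧
      ∀ w, c w = i → w.ord (y ^ e * f) = 0 ∧ UnitA A (val w (y ^ e * f)) := by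
    intro i hi
    obtain ⟨v, hv, rfl⟩ := Finset.mem_image.1 hi
    exact hloc v (Finsupp.mem_support_iff.1 hv)
  set y : ι → F := fun i => if hi : i ∈ s then (hex i hi).choose else 1 with hydef
  have hy : ∀ i, i ∈ s → y i ≠ 0 ∧ σ • y i = y i ∧
      ∀ w, c w = i → w.ord (y i ^ e * f) = 0 ∧ UnitA A (val w (y i ^ e * f)) := by
    intro i hi
    simp only [hydef, dif_pos hi]
    exact (hex i hi).choose_spec
  have hsupp : ∀ i v, D i v ≠ 0 → c v = i := by
    intro i v hv
    by_contra hne
    apply hv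
    simp only [hDdef, Finsupp.filter_apply]
    rw [if_neg hne]
  have hU : ∀ i ∈ s, UnitOn (y i ^ e * f) (D i) := fun i hi =>
    ⟨mul_ne_zero (pow_ne_zero _ (hy i hi).1) hf.1, fun v hv => ((hy i hi).2.2 v (hsupp i v hv)).1⟩
  have hUA : UnitA A (∏ i ∈ s, evalD (y i ^ e * f) (D i)) := by
    refine unitA_prod s _ fun i hi => ?_
    rw [evalD, Finsupp.prod]
    refine unitA_prod _ _ fun v hv => ?_
    exact ((hy i hi).2.2 v (hsupp i v (Finsupp.mem_support_iff.1 hv))).2.zpow _
  have hUσ : SemilinearAut.baseAut σ (∏ i ∈ s, evalD (y i ^ e * f) (D i))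
      = ∏ i ∈ s, evalD (y i ^ e * f) (D i) := by
    rw [map_prod]
    refine Finset.prod_congr rfl fun i hi => ?_
    rw [← evalD_smul, hσD i hi, smul_mul', smul_pow', (hy i hi).2.1, hσf]
  rw [hsum] at hdiv
  refine kum_abs he σ hf hσf hh D' s D hσD hdiv y (fun i hi => (hy i hi).1)
    (fun i hi => (hy i hi).2.1) hU ?_
  intro z hz
  exact hroot z (hz ▸ hUA) (by rw [hz]; exact hUσ)

end Fermat.Agent.S43.EV
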