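import Fermat.Agent.S43.EV.Root
import Fermat.Agent.S43.EV.Centre
import Fermat.Agent.S43.KUM.Main

/-!
# S43 / EV / EVq : `KUM.EV N A q e fz` from local generators

Local data: functions `y u : Place → FF N`, invariant under inertia (as functions of the place, and their values are fixed by inertia),
`fz = y v ^ e * u v` and `u v (v) ∈ Aˣ` at every place `v` which is neither a zero nor a pole of `fz`.
Then `fz(D) = α ^ e * β`, `α` fixed by inertia, `β ∈ Aˣ`; the value group of `L0` is generated by `q`.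
-/

set_option autoImplicit false

namespace Fermat.Agent.S43.EV

open AlgebraicCurve ModularCurve Fermat.Agent.S26 Fermat.Agent.S37.Red Fermat.Agent.S15.W
open Fermat.Agent.ES Fermat.Agent.S36.Base Fermat.Agent.S43.KUM

section Gen

variable {K F : Type*} [Field K] [Field F] [Algebra K F] [IsAlgClosed K] [FF1 K F]

/-- `W(R) = (∏ y_v(v) ^ R v) ^ e * ∏ u_v(v) ^ R v`. -/
theorem evalD_eq_pow_mul {e : ℕ} (he0 : e ≠ 0) {R : Divisor K F} {W : F} (hW : UnitOn W R)
    (y u : Place K F → F) (hWyu : ∀ v, R v ≠ 0 → W = y v ^ e * u v)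
    (hou : ∀ v, R v ≠ 0 → v.ord (u v) = 0) :
    evalD W R = (R.prod fun v n => val v (y v) ^ n) ^ e * R.prod fun v n => val v (u v) ^ n := by
  have hy0 : ∀ v, R v ≠ 0 → y v ≠ 0 := fun v hv h0 => by
    have h1 := hWyu v hv
    rw [h0, zero_pow he0, zero_mul] at h1
    exact hW.1 h1
  have hu0 : ∀ v, R v ≠ 0 → u v ≠ 0 := fun v hv h0 => by
    have h1 := hWyu v hv
    rw [h0, mul_zero] at h1
    exact hW.1 h1
  have hoy : ∀ v, R v ≠ 0 → v.ord (y v) = 0 := fun v hv => by
    have h1 := hW.2 v hv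
    rw [hWyu v hv, v.ord_mul (pow_ne_zero e (hy0 v hv)) (hu0 v hv), hou v hv, add_zero,
      ← zpow_natCast, v.ord_zpow] at h1
    exact (mul_eq_zero.1 h1).resolve_left (Int.natCast_ne_zero.2 he0)
  rw [evalD, Finsupp.prod, Finsupp.prod, Finsupp.prod, ← Finset.prod_pow,
    ← Finset.prod_mul_distrib]
  refine Finset.prod_congr rfl fun v hv => ?_
  have hv' := Finsupp.mem_support_iff.1 hv
  have hry : Reg v (y v) := (reg_iff_ord v).2 (hoy v hv').ge
  have hru : Reg v (u v) := (reg_iff_ord v).2 (hou v hv').ge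
  conv_lhs => rw [hWyu v hv', val_mul v (Reg.pow v hry e) hru, val_pow v hry, mul_zpow]
  rw [← zpow_natCast, ← zpow_natCast, zpow_comm]

end Gen

variable {N : ℕ} [NeZero N]

/-- **(EV) from local generators.** -/
theorem ev_of_local {q e : ℕ} (hq : q.Prime) {A : ValuationSubring Qb} (hA : A.LiesOverPrime q)
    (he0 : e ≠ 0) {fz : FF N} (y u : Place Qb (FF N) → FF N)
    (hy : ∀ s ∈ A.inertiaSubgroupIn ℚ, ∀ v, v.ord fz = 0 → y (aG N s • v) = y v)
    (hsy : ∀ s ∈ A.inertiaSubgroupIn ℚ, ∀ v, v.ord fz = 0 → galF N s (y v) = y v)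
    (hWyu : ∀ v : Place Qb (FF N), v.ord fz = 0 → fz = y v ^ e * u v)
    (hval : ∀ v : Place Qb (FF N), v.ord fz = 0 → A.valuation (val v (u v)) = 1) :
    EV N A q e fz := by
  intro D hD _ hU
  have hou : ∀ v, D v ≠ 0 → v.ord (u v) = 0 := fun v hv =>
    ord_eq_zero_of_val_ne_zero fun h0 => by
      have := hval v (hU.2 v hv)
      rw [h0, map_zero] at this
      exact zero_ne_one this
  have hev := evalD_eq_pow_mul he0 hU y u (fun v hv => hWyu v (hU.2 v hv)) hou
  set α : Qb := D.prod fun v n => val v (y v) ^ n with hα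
  set β : Qb := D.prod fun v n => val v (u v) ^ n with hβ
  have hβ1 : A.valuation β = 1 :=
    val_prod_eq_one A D (fun v => val v (u v)) fun v hv => hval v (hU.2 v hv)
  have hαL : α ∈ L0 A := by
    rw [mem_L0_iff]
    intro s hs
    have h1 := prod_fixed (aG N s) (hD s hs) (fun v => val v (y v)) fun v hv => by
      show val (aG N s • v) (y (aG N s • v)) = _
      rw [hy s hs v (hU.2 v hv), ← Fermat.Agent.S37.Red.val_smul, aG_smul, hsy s hs v (hU.2 v hv)]
    rw [baseAut_arithmeticGalois] at h1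
    exact h1
  have hα0 : α ≠ 0 := by
    intro h0
    have h1 := hU.evalD_ne_zero
    rw [hev, h0, zero_pow he0, zero_mul] at h1
    exact h1 rfl
  obtain ⟨k, hk1, hk2⟩ := exists_zpow_mul_mem hq hA hαL hα0
  have hform : evalD fz D * (q : Qb) ^ ((e : ℤ) * k) = (α * (q : Qb) ^ k) ^ e * β := by
    rw [hev, mul_pow, ← zpow_natCast ((q : Qb) ^ k) e, ← zpow_mul, mul_comm k]
    ring
  have hβA : β ∈ A := (A.valuation_le_one_iff _).1 hβ1.le
  have hβA' : β⁻¹ ∈ A := (A.valuation_le_one_iff _).1 (by rw [map_inv₀, hβ1, inv_one])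
  refine ⟨k, ?_, ?_⟩
  · rw [hform]
    exact A.mul_mem _ _ (pow_mem hk1 e) hβA
  · rw [hform, mul_inv, ← inv_pow]
    exact A.mul_mem _ _ (pow_mem hk2 e) hβA'

omit [NeZero N] in
/-- the hypothesis `hroot` of `kum_centre` for inertia. -/
theorem hroot_inertia {q e : ℕ} (hq : q.Prime) {A : ValuationSubring Qb} (hA : A.LiesOverPrime q)
    (hqe : ¬ q ∣ e) {s : GQ} (hs : s ∈ A.inertiaSubgroupIn ℚ) (c : Qb) (hc : UnitA A (c ^ e))
    (hfix : SemilinearAut.baseAut (aG N s) (c ^ e) = c ^ e) :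
    SemilinearAut.baseAut (aG N s) c = c := by
  rcases eq_or_ne c 0 with rfl | hc0
  · exact map_zero _
  refine root_fixed A _ (fun x hx => ?_) (val_natCast_eq_one hq hA hqe) (u := c ^ e) ?_ hfix rfl
  · rw [baseAut_arithmeticGalois]
    exact inertia_val_lt hs x hx
  · refine le_antisymm ((A.valuation_le_one_iff _).2 hc.1) ?_
    have h1 := (A.valuation_le_one_iff _).2 hc.2
    rw [map_inv₀] at h1
    have h0 : A.valuation (c ^ e) ≠ 0 := by
      rw [Ne, map_eq_zero]
      exact pow_ne_zero e hc0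
    by_contra h2
    rw [not_le] at h2
    exact absurd h1 (not_le.2 ((one_lt_inv₀ (zero_lt_iff.2 h0)).2 h2))

end Fermat.Agent.S43.EV
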