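import Fermat.Agent.S15.W.Pair
import Fermat.Agent.ES.B.Red

/-!
# S43 / EV / Root : the end of (EV) + (KUM), without any value group

Generic: `K` algebraically closed, `F/K` a function field (`S26.FF1`), `s : SemilinearAut K F`,
`A : ValuationSubring K` such that `t = baseAut s` is trivial on the residue field of `A`.

* `eq_one_of_pow_eq_one` : `z ^ e = 1`, `e` a unit of `A`, `z ≡ 1` ==> `z = 1`;
* `root_fixed`           : `r ^ e = u`, `u` a `t`-fixed unit of `A` ==> `t r = r`;
* `prod_fixed`           : `s • R = R`, `a (s • v) = t (a v)` ==> `∏ a v ^ R v` is `t`-fixed;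
* `exists_fixed_root`    : local data `W = y_v ^ e * u_v` on the support of `R` ==> `W(R) = ρ ^ e`, `ρ` fixed;
* `fixed_of_pow_mul`     : `ξ ^ e * W(R) = 1` ==> `t ξ = ξ`;
* `inertia_val_lt`, `val_natCast_eq_one` : the two hypotheses for `K = ℚ̄`, `σ` in the inertia group of `A`.
-/

set_option autoImplicit false

namespace Fermat.Agent.S43.EV

open AlgebraicCurve Fermat.Agent.S26 Fermat.Agent.S37.Red Fermat.Agent.S15.W

section Fld

variable {K : Type*} [Field K]

theorem val_pow_sub_one_lt (A : ValuationSubring K) {z : K} (h1 : A.valuation (z - 1) < 1) (i : ℕ) :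
    A.valuation (z ^ i - 1) < 1 := by
  have hz : z ∈ A := by
    have h2 : z - 1 ∈ A := (A.valuation_le_one_iff _).1 h1.le
    have h3 := A.add_mem _ _ h2 A.one_mem
    rwa [sub_add_cancel] at h3
  have h4 : (∑ j ∈ Finset.range i, z ^ j) ∈ A := sum_mem fun j _ => pow_mem hz j
  rw [← geom_sum_mul, map_mul]
  calc A.valuation (∑ j ∈ Finset.range i, z ^ j) * A.valuation (z - 1)
      ≤ 1 * A.valuation (z - 1) := mul_le_mul_left ((A.valuation_le_one_iff _).2 h4) _
    _ < 1 := by rwa [one_mul]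

/-- a root of unity of order prime to the residue characteristic which is `≡ 1` is `1`. -/
theorem eq_one_of_pow_eq_one (A : ValuationSubring K) {e : ℕ} (he : A.valuation (e : K) = 1)
    {z : K} (hz : z ^ e = 1) (h1 : A.valuation (z - 1) < 1) : z = 1 := by
  by_contra hne
  have hsum : ∑ i ∈ Finset.range e, z ^ i = 0 := by
    have h := geom_sum_mul z e
    rw [hz, sub_self] at h
    exact (mul_eq_zero.1 h).resolve_right (sub_ne_zero.2 hne)
  have h2 : A.valuation ((∑ i ∈ Finset.range e, z ^ i) - (e : K)) < 1 := by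
    have h3 : (∑ i ∈ Finset.range e, z ^ i) - (e : K) = ∑ i ∈ Finset.range e, (z ^ i - 1) := by
      simp [Finset.sum_sub_distrib]
    rw [h3]
    exact Valuation.map_sum_lt _ one_ne_zero fun i _ => val_pow_sub_one_lt A h1 i
  rw [hsum, zero_sub, Valuation.map_neg, he] at h2
  exact lt_irrefl _ h2

/-- (R2) `e`-th roots of fixed units are fixed. -/
theorem root_fixed (A : ValuationSubring K) (t : K ≃+* K)
    (ht : ∀ x ∈ A, A.valuation (t x - x) < 1) {e : ℕ} (he : A.valuation (e : K) = 1) {u r : K}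
    (hu : A.valuation u = 1) (htu : t u = u) (hr : r ^ e = u) : t r = r := by
  have he0 : e ≠ 0 := by
    rintro rfl
    simp at he
  have hr1 : A.valuation r = 1 := by
    have h : A.valuation r ^ e = 1 := by rw [← map_pow, hr, hu]
    exact (pow_eq_one_iff_of_nonneg zero_le he0).mp h
  have hr0 : r ≠ 0 := by
    rintro rfl
    simp at hr1
  have hu0 : u ≠ 0 := by
    rintro rfl
    simp at hu
  have hz : (t r / r) ^ e = 1 := by rw [div_pow, ← map_pow, hr, htu, div_self hu0]
  have h1 : A.valuation (t r / r - 1) < 1 := by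
    have h : t r / r - 1 = (t r - r) / r := by field_simp
    rw [h, map_div₀, hr1, div_one]
    exact ht r ((A.valuation_le_one_iff r).1 hr1.le)
  exact (div_eq_one_iff_eq hr0).1 (eq_one_of_pow_eq_one A he hz h1)

/-- `e`-th roots of unity are fixed. -/
theorem rootOfUnity_fixed (A : ValuationSubring K) (t : K ≃+* K)
    (ht : ∀ x ∈ A, A.valuation (t x - x) < 1) {e : ℕ} (he : A.valuation (e : K) = 1) {r : K}
    (hr : r ^ e = 1) : t r = r :=
  root_fixed A t ht he (map_one _) (map_one t) hr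

/-- (R4, abstract) `ξ ^ e * w = 1`, `w = ρ ^ e`, `ρ` fixed ==> `ξ` fixed. -/
theorem fixed_of_pow_mul_pow (A : ValuationSubring K) (t : K ≃+* K)
    (ht : ∀ x ∈ A, A.valuation (t x - x) < 1) {e : ℕ} (he : A.valuation (e : K) = 1) {ξ ρ : K}
    (hρ : t ρ = ρ) (h : ξ ^ e * ρ ^ e = 1) : t ξ = ξ := by
  have he0 : e ≠ 0 := by
    rintro rfl
    simp at he
  have hρ0 : ρ ≠ 0 := by
    rintro rfl
    rw [zero_pow he0, mul_zero] at h
    exact zero_ne_one h
  have h1 : t (ξ * ρ) = ξ * ρ := rootOfUnity_fixed A t ht he (by rw [mul_pow, h])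
  rw [map_mul, hρ] at h1
  exact mul_right_cancel₀ hρ0 h1

end Fld

section FF

variable {K F : Type*} [Field K] [Field F] [Algebra K F]

/-- (R1) -/
theorem prod_fixed (s : SemilinearAut K F) {R : Divisor K F} (hR : s • R = R) (a : Place K F → K)
    (ha : ∀ v, R v ≠ 0 → a (s • v) = SemilinearAut.baseAut s (a v)) :
    SemilinearAut.baseAut s (R.prod fun v n => a v ^ n) = R.prod fun v n => a v ^ n := by
  conv_rhs => rw [← hR]
  rw [SemilinearAut.divisor_smul_def, Finsupp.prod_mapDomain_index_inj (MulAction.injective s),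
    Finsupp.prod, Finsupp.prod, map_prod]
  refine Finset.prod_congr rfl fun v hv => ?_
  rw [ha v (Finsupp.mem_support_iff.1 hv), map_zpow₀]

theorem val_prod_eq_one (A : ValuationSubring K) (R : Divisor K F) (b : Place K F → K)
    (hb : ∀ v, R v ≠ 0 → A.valuation (b v) = 1) :
    A.valuation (R.prod fun v n => b v ^ n) = 1 := by
  rw [Finsupp.prod, map_prod]
  refine Finset.prod_eq_one fun v hv => ?_
  rw [map_zpow₀, hb v (Finsupp.mem_support_iff.1 hv), one_zpow]

theorem ord_eq_zero_of_val_ne_zero {v : Place K F} {f : F} (h : val v f ≠ 0) : v.ord f = 0 := by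
  have hr : Reg v f := by
    by_contra hr
    exact h (val_of_not_reg v hr)
  exact ord_eq_zero_of_reg_of_not_van v hr fun hv => h (val_eq_zero_of_van v hv)

variable [IsAlgClosed K] [FF1 K F]

/-- (R3) **`W(R)` is an `e`-th power of a fixed element**, from local data on the support of `R`:
`W = y_v ^ e * u_v`, `y_v, u_v` fixed by `s` and depending only on the `s`-orbit of `v`,
`u_v(v)` a unit of `A`. -/
theorem exists_fixed_root (A : ValuationSubring K) (s : SemilinearAut K F)
    (ht : ∀ x ∈ A, A.valuation (SemilinearAut.baseAut s x - x) < 1) {e : ℕ}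
    (he : A.valuation (e : K) = 1) {R : Divisor K F} (hR : s • R = R) {W : F} (hW : UnitOn W R)
    (y u : Place K F → F)
    (hy : ∀ v, R v ≠ 0 → y (s • v) = y v) (hu : ∀ v, R v ≠ 0 → u (s • v) = u v)
    (hsy : ∀ v, R v ≠ 0 → s • y v = y v) (hsu : ∀ v, R v ≠ 0 → s • u v = u v)
    (hWyu : ∀ v, R v ≠ 0 → W = y v ^ e * u v)
    (hval : ∀ v, R v ≠ 0 → A.valuation (val v (u v)) = 1) :
    ∃ ρ : K, SemilinearAut.baseAut s ρ = ρ ∧ ρ ^ e = evalD W R := by
  have he0 : e ≠ 0 := by
    rintro rfl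
    simp at he
  have hou : ∀ v, R v ≠ 0 → v.ord (u v) = 0 := fun v hv =>
    ord_eq_zero_of_val_ne_zero fun h0 => by
      have := hval v hv
      rw [h0, map_zero] at this
      exact zero_ne_one this
  have hy0 : ∀ v, R v ≠ 0 → y v ≠ 0 := fun v hv h0 => by
    have h1 := hWyu v hv
    rw [h0, zero_pow he0, zero_mul] at h1
    exact hW.1 h1
  have hu0 : ∀ v, R v ≠ 0 → u v ≠ 0 := fun v hv h0 => by
    have h1 := hWyu v hv
    rw [h0, mul_zero] at h1
    exact hW.1 h1
  have hoy : ∀ v, R v ≠ 0 → v.ord (y v) = 0 := fun v hv => by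
    have h1 := hW.2 v hv
    rw [hWyu v hv, v.ord_mul (pow_ne_zero e (hy0 v hv)) (hu0 v hv), hou v hv, add_zero,
      ← zpow_natCast, v.ord_zpow] at h1
    exact (mul_eq_zero.1 h1).resolve_left (Int.natCast_ne_zero.2 he0)
  set α : K := R.prod fun v n => val v (y v) ^ n with hα
  set β : K := R.prod fun v n => val v (u v) ^ n with hβ
  have hα1 : SemilinearAut.baseAut s α = α :=
    prod_fixed s hR (fun v => val v (y v)) fun v hv => by
      show val (s • v) (y (s • v)) = _
      rw [hy v hv, ← Fermat.Agent.S37.Red.val_smul, hsy v hv]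
  have hβ1 : SemilinearAut.baseAut s β = β :=
    prod_fixed s hR (fun v => val v (u v)) fun v hv => by
      show val (s • v) (u (s • v)) = _
      rw [hu v hv, ← Fermat.Agent.S37.Red.val_smul, hsu v hv]
  have hβ2 : A.valuation β = 1 := val_prod_eq_one A R (fun v => val v (u v)) hval
  obtain ⟨r, hr⟩ := IsAlgClosed.exists_pow_nat_eq β (Nat.pos_of_ne_zero he0)
  refine ⟨α * r, ?_, ?_⟩
  · rw [map_mul, hα1, root_fixed A _ ht he hβ2 hβ1 hr]
  · rw [mul_pow, hr, hα, hβ, evalD, Finsupp.prod, Finsupp.prod, Finsupp.prod, ← Finset.prod_pow,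
      ← Finset.prod_mul_distrib]
    refine Finset.prod_congr rfl fun v hv => ?_
    have hv' := Finsupp.mem_support_iff.1 hv
    have hry : Reg v (y v) := (reg_iff_ord v).2 (hoy v hv').ge
    have hru : Reg v (u v) := (reg_iff_ord v).2 (hou v hv').ge
    conv_rhs => rw [hWyu v hv', val_mul v (Reg.pow v hry e) hru, val_pow v hry, mul_zpow]
    rw [← zpow_natCast, ← zpow_natCast, zpow_comm]

/-- (R4) `ξ ^ e * W(R) = 1` ==> `ξ` is fixed. -/
theorem fixed_of_pow_mul (A : ValuationSubring K) (s : SemilinearAut K F)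
    (ht : ∀ x ∈ A, A.valuation (SemilinearAut.baseAut s x - x) < 1) {e : ℕ}
    (he : A.valuation (e : K) = 1) {R : Divisor K F} (hR : s • R = R) {W : F} (hW : UnitOn W R)
    (y u : Place K F → F)
    (hy : ∀ v, R v ≠ 0 → y (s • v) = y v) (hu : ∀ v, R v ≠ 0 → u (s • v) = u v)
    (hsy : ∀ v, R v ≠ 0 → s • y v = y v) (hsu : ∀ v, R v ≠ 0 → s • u v = u v)
    (hWyu : ∀ v, R v ≠ 0 → W = y v ^ e * u v)
    (hval : ∀ v, R v ≠ 0 → A.valuation (val v (u v)) = 1)
    {ξ : K} (hξ : ξ ^ e * evalD W R = 1) : SemilinearAut.baseAut s ξ = ξ := by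
  obtain ⟨ρ, hρ, hρe⟩ := exists_fixed_root A s ht he hR hW y u hy hu hsy hsu hWyu hval
  exact fixed_of_pow_mul_pow A _ ht he hρ (by rw [hρe, hξ])

end FF

section Qbar

open Fermat.Agent.ES

variable {A : ValuationSubring Qb}

/-- (R5a) inertia acts trivially modulo the maximal ideal. -/
theorem inertia_val_lt {σ : GQ} (hσ : σ ∈ A.inertiaSubgroupIn ℚ) (x : Qb) (hx : x ∈ A) :
    A.valuation (σ x - x) < 1 := by
  obtain ⟨g, rfl, hg⟩ := res_galA_of_inertia hσ
  have h1 : resA A (galA g ⟨x, hx⟩) = resA A ⟨x, hx⟩ := RingHom.congr_fun hg ⟨x, hx⟩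
  have h2 : galA g ⟨x, hx⟩ - ⟨x, hx⟩ ∈ IsLocalRing.maximalIdeal A := by
    rw [← IsLocalRing.residue_eq_zero_iff, map_sub, sub_eq_zero]
    exact h1
  have h3 := (A.valuation_lt_one_iff _).1 h2
  exact h3

/-- (R5b) integers prime to the residue characteristic are units. -/
theorem val_natCast_eq_one {q : ℕ} (hq : q.Prime) (hA : A.LiesOverPrime q) {e : ℕ}
    (he : ¬ q ∣ e) : A.valuation (e : Qb) = 1 := by
  have hc := charP_kA hq hA
  have hmem : (e : Qb) ∈ A := natCast_mem A e
  refine le_antisymm ((A.valuation_le_one_iff _).2 hmem) (not_lt.1 fun hlt => he ?_)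
  have h2 : (⟨(e : Qb), hmem⟩ : A) ∈ IsLocalRing.maximalIdeal A :=
    (A.valuation_lt_one_iff _).2 hlt
  have h3 : (⟨(e : Qb), hmem⟩ : A) = ((e : ℕ) : A) := by
    apply Subtype.ext
    simp
  rw [h3, ← IsLocalRing.residue_eq_zero_iff, map_natCast] at h2
  exact (CharP.cast_eq_zero_iff (kA A) q e).1 h2

end Qbar

end Fermat.Agent.S43.EV
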