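import Fermat.Agent.S43.EV.Cen
import Fermat.Agent.S43.EV.Root
import Fermat.Agent.S43.KUM.Move
import Fermat.Agent.S36.Base.Residue

/-!
# S43 / EV / InT : `InType` for the arithmetic Galois action of inertia, and `hres` for `ℚ̄`
-/

set_option autoImplicit false

namespace Fermat.Agent.S43.EV

open AlgebraicCurve ModularCurve Fermat.Agent.S26 Fermat.Agent.S37.Red
open Fermat.Agent.ES Fermat.Agent.S43.KUM

variable {A : ValuationSubring Qb}

/-- inertia preserves `A`. -/
theorem inertia_mem {s : GQ} (hs : s ∈ A.inertiaSubgroupIn ℚ) {c : Qb} (hc : c ∈ A) : s c ∈ A := by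
  have h1 : s c - c ∈ A := (A.valuation_le_one_iff _).1 (inertia_val_lt hs c hc).le
  have h2 : s c = (s c - c) + c := by ring
  rw [h2]
  exact A.add_mem _ _ h1 hc

theorem inertia_mem_iff {s : GQ} (hs : s ∈ A.inertiaSubgroupIn ℚ) {c : Qb} : s c ∈ A ↔ c ∈ A := by
  refine ⟨fun h => ?_, inertia_mem hs⟩
  have h1 := inertia_mem (inv_mem hs) h
  have h2 : s⁻¹ (s c) = c := by
    rw [← AlgEquiv.mul_apply, inv_mul_cancel, AlgEquiv.one_apply]
  rwa [h2] at h1

/-- **`InType` for inertia.** -/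
theorem inType_inertia {N : ℕ} {O : Type*} [CommRing O] (χ : O →+* FF N) {s : GQ}
    (hs : s ∈ A.inertiaSubgroupIn ℚ) (hfix : ∀ x, galF N s (χ x) = χ x) :
    InType A χ (aG N s) where
  fix := hfix
  triv := fun c hc => by
    rw [baseAut_arithmeticGalois]
    exact inertia_val_lt hs c hc
  back := fun c hc => by
    rw [baseAut_arithmeticGalois] at hc
    exact (inertia_mem_iff hs).1 hc

/-- the hypothesis `hres` of `cen_isMaximal` / `exists_loc` for `ℚ̄`. -/
theorem hres_Qb {q : ℕ} (hq : q.Prime) (hA : A.LiesOverPrime q) (c : Qb)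
    (hc : A.valuation c = 1) : ∃ N : ℕ, 0 < N ∧ A.valuation (c ^ N - 1) < 1 := by
  obtain ⟨f, hf, h⟩ := Fermat.Agent.S36.Base.exists_pow_sub_mem_nonunits hq hA
    ((A.valuation_le_one_iff c).1 hc.le)
  have h1 : 1 < q ^ f := Nat.one_lt_pow hf.ne' hq.one_lt
  refine ⟨q ^ f - 1, by omega, ?_⟩
  rw [ValuationSubring.mem_nonunits_iff] at h
  have h2 : c ^ (q ^ f) - c = c * (c ^ (q ^ f - 1) - 1) := by
    have h3 : q ^ f = (q ^ f - 1) + 1 := by omega
    conv_lhs => rw [h3, pow_succ]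
    ring
  rwa [h2, map_mul, hc, one_mul] at h

end Fermat.Agent.S43.EV
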