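import Fermat.Agent.S43.EV.Int
import Fermat.Agent.S43.EV.EVq
import Fermat.Agent.S43.Q.Loc
import Fermat.Agent.S43.EV.InT

/-!
# S43 / EV / Inst : the concrete instance of `EV.exists_loc` for the two charts of `Q.CtxQ`

`K₀ ⊆ ℚ̄` fixed by the inertia group of `A`, `C : CtxQ M q r π Φ w X` over `A₀ = A ∩ K₀`, `W : F` with the conclusions of `CtxQ.loc0`, `CtxQ.locinf`.
Then `fz = bc (Φ W) ∈ FF (M q)` has local generators which are functions of the centre.

* `exists_loc_ctx` : the instance.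
-/

set_option autoImplicit false
set_option linter.unusedSectionVars false
set_option linter.style.haveILetI false

open Polynomial AlgebraicCurve ModularCurve
open scoped IntermediateField

namespace Fermat.Agent.S43.EV

open Fermat.Agent.S26 Fermat.Agent.S37.Red Fermat.Agent.ES Fermat.Agent.S43.KUM
open Fermat.Agent.Crux.G Fermat.Agent.SS.G2 Fermat.Agent.SS.GM2 Fermat.Agent.S44.Bridge
open Fermat.Agent.S44.Cover (LL bc gact)
open Fermat.Agent.Crux (A0)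
open Fermat.Agent.S43.Q (CtxQ)

section Ctx

variable {M q : ℕ} [NeZero M] [NeZero q] {A : ValuationSubring Qb} {K₀ : IntermediateField ℚ Qb}
  [IsDiscreteValuationRing (A0 K₀ A)] {k : Type} [Field k] [Finite k] {r : A0 K₀ A →+* k}
  {π : A0 K₀ A}
variable {F : Type} [Field F] [Algebra (A0 K₀ A) F] {Φ : F →+* LaurentSeries K₀} {w : F →+* F}
variable {E : Type} [Field E] [CharZero E] [Algebra (A0 K₀ A) E] [Algebra E F]
  [IsScalarTower (A0 K₀ A) E F] [FiniteDimensional E F]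

/-- **the concrete instance of `exists_loc`.** -/
theorem exists_loc_ctx (hq : q.Prime) (hA : A.LiesOverPrime q)
    (hI : ∀ s ∈ A.inertiaSubgroupIn ℚ, ∀ c ∈ K₀, s c = c)
    {X : E} (C : CtxQ M q r π Φ w X) {m : ℕ} {W : F}
    (hloc₁ : letI := algL (A := A0 K₀ A) F X
      ∀ n : Ideal (SM (A0 K₀ A) F), n.IsMaximal → pi π F ∈ n →
        ∃ (y : F) (s t : SM (A0 K₀ A) F), y ≠ 0 ∧ s ∉ n ∧ t ∉ n ∧
          algebraMap (SM (A0 K₀ A) F) F s * (y ^ m * W) = algebraMap (SM (A0 K₀ A) F) F t)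
    (hloc₂ : letI := algL (A := A0 K₀ A) F X⁻¹
      ∀ n : Ideal (SM (A0 K₀ A) F), n.IsMaximal → pi π F ∈ n →
        algebraMap (A0 K₀ A)[X] (SM (A0 K₀ A) F) Polynomial.X ∈ n →
        ∃ (y : F) (s t : SM (A0 K₀ A) F), y ≠ 0 ∧ s ∉ n ∧ t ∉ n ∧
          algebraMap (SM (A0 K₀ A) F) F s * (y ^ m * W) = algebraMap (SM (A0 K₀ A) F) F t)
    {fz : FF (M * q)} (hfz : (fz : LL) = bc K₀ (Φ W)) :
    ∃ y u : Place Qb (FF (M * q)) → FF (M * q),
      (∀ v, fz = y v ^ m * u v) ∧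
      (∀ s ∈ A.inertiaSubgroupIn ℚ, ∀ v,
        galF (M * q) s (y v) = y v ∧ galF (M * q) s (u v) = u v) ∧
      (∀ v, v.ord (u v) = 0 ∧ A.valuation (val v (u v)) = 1) ∧
      ∀ s ∈ A.inertiaSubgroupIn ℚ, ∀ v,
        y (aG (M * q) s • v) = y v ∧ u (aG (M * q) s • v) = u v := by
  obtain ⟨β, hβ⟩ := Fermat.Agent.Crux.GM.exists_Psi (K := K₀) (M * q) Φ
    (fun f => (C.S.hΦF _).2 ⟨f, rfl⟩)
  have hβfix : ∀ s ∈ A.inertiaSubgroupIn ℚ, ∀ f : F, galF (M * q) s (β f) = β f := by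
    intro s hs f
    apply Subtype.ext
    rw [coe_galF, hβ]
    exact Fermat.Agent.S44.Cover.gact_bc K₀ s (hI s hs) _
  let ι : A0 K₀ A →+* Qb := (algebraMap K₀ Qb).comp (A0 K₀ A).subtype
  have hι : ∀ a, ι a ∈ A := fun a => a.2
  have hβA : ∀ a : A0 K₀ A, β (algebraMap (A0 K₀ A) F a) = algebraMap Qb (FF (M * q)) (ι a) := by
    intro a
    apply Subtype.ext
    rw [hβ, C.S.hΦA]
    show coeffMap (algebraMap K₀ Qb) (HahnSeries.C (algebraMap (A0 K₀ A) K₀ a))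
      = algebraMap Qb (LaurentSeries Qb) (ι a)
    rw [algebraMap_laurentSeries_eq_single, HahnSeries.C_apply, coeffMap_single]
    rfl
  have hπ : A.valuation (ι π) < 1 := by
    have h1 : IsLocalRing.residue (A0 K₀ A) π = 0 := by
      rw [IsLocalRing.residue_eq_zero_iff, IsLocalRing.mem_maximalIdeal, mem_nonunits_iff]
      exact C.S.hπ.not_isUnit
    have h2 := (Fermat.Agent.Crux.residue_comap_eq_zero_iff (algebraMap K₀ Qb) A π
      ⟨ι π, hι π⟩ rfl).1 h1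
    rw [IsLocalRing.residue_eq_zero_iff] at h2
    exact (A.valuation_lt_one_iff _).1 h2
  let i1 : Algebra (A0 K₀ A)[X] F := algL (A := A0 K₀ A) F X
  let i2 : Algebra (A0 K₀ A)[X] F := algL (A := A0 K₀ A) F X⁻¹
  let O₁ : @Subalgebra (A0 K₀ A)[X] F _ _ i1 := @SM (A0 K₀ A) _ F _ i1
  let O₂ : @Subalgebra (A0 K₀ A)[X] F _ _ i2 := @SM (A0 K₀ A) _ F _ i2
  have hC₁ : ∀ a, (β.comp (algebraMap O₁ F)) (algebraMap (A0 K₀ A)[X] O₁ (Polynomial.C a))
      = algebraMap Qb (FF (M * q)) (ι a) := by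
    intro a
    rw [← hβA]
    show β (algebraMap E F (aeval X (Polynomial.C a))) = _
    rw [aeval_C, ← IsScalarTower.algebraMap_apply]
  have hC₂ : ∀ a, (β.comp (algebraMap O₂ F)) (algebraMap (A0 K₀ A)[X] O₂ (Polynomial.C a))
      = algebraMap Qb (FF (M * q)) (ι a) := by
    intro a
    rw [← hβA]
    show β (algebraMap E F (aeval X⁻¹ (Polynomial.C a))) = _
    rw [aeval_C, ← IsScalarTower.algebraMap_apply]
  have hinv : (β.comp (algebraMap O₂ F)) (algebraMap (A0 K₀ A)[X] O₂ Polynomial.X)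
      = ((β.comp (algebraMap O₁ F)) (algebraMap (A0 K₀ A)[X] O₁ Polynomial.X))⁻¹ := by
    show β (algebraMap E F (aeval X⁻¹ Polynomial.X)) = (β (algebraMap E F (aeval X Polynomial.X)))⁻¹
    rw [aeval_X, aeval_X, map_inv₀, map_inv₀]
  obtain ⟨y, u, h1, h2, h3, h4⟩ := exists_loc (O₁ := O₁) (O₂ := O₂) A β (hres_Qb hq hA) (m := m)
    (W0 := W) (π₁ := @pi (A0 K₀ A) _ π F _ i1) (π₂ := @pi (A0 K₀ A) _ π F _ i2)
    (x₂ := algebraMap (A0 K₀ A)[X] O₂ Polynomial.X)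
    (fun v => by
      show A.valuation (val v ((β.comp (algebraMap O₁ F))
        (algebraMap (A0 K₀ A)[X] O₁ (Polynomial.C π)))) < 1
      rw [hC₁, val_algebraMap]
      exact hπ)
    (fun v => by
      show A.valuation (val v ((β.comp (algebraMap O₂ F))
        (algebraMap (A0 K₀ A)[X] O₂ (Polynomial.C π)))) < 1
      rw [hC₂, val_algebraMap]
      exact hπ)
    (cov hι (β.comp (algebraMap O₁ F)) (β.comp (algebraMap O₂ F)) hC₁ hC₂ hinv)
    hloc₁ hloc₂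
  have hfz' : fz = β W := Subtype.ext (hfz.trans (hβ W).symm)
  refine ⟨y, u, fun v => hfz'.trans (h1 v), fun s hs v => ?_, h3, fun s hs v =>
    h4 (aG (M * q) s) (inType_inertia _ hs fun x => hβfix s hs _)
      (inType_inertia _ hs fun x => hβfix s hs _) v⟩
  obtain ⟨⟨a, ha⟩, ⟨b, hb⟩⟩ := h2 v
  rw [← ha, ← hb]
  exact ⟨hβfix s hs a, hβfix s hs b⟩

end Ctx

end Fermat.Agent.S43.EV
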