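import Fermat.Agent.S15.W.Pair

/-!
# S43 / EV / Abs : the abstract form of (KUM)+(EV) of #3454

`K` alg. closed of char. `0`, `F/K` a function field, `σ` a semilinear automorphism, `f ∈ Dm e` fixed by `σ`, `h ≠ 0` with
`div h = e D' - ∑ D i`, every `D i` stable under `σ`, and LOCAL GENERATORS `y i` (fixed by `σ`) such that `y i ^ e * f` is a unit on `D i`,
and every `e`-th root of `∏ (y i ^ e f)(D i)` is fixed by `σ`.   THEN `e1 (σ h / h) f = 1`.

No disjointness assumption, no moving lemma over the fixed field, no value group.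
-/

set_option autoImplicit false

namespace Fermat.Agent.S43.EV

open AlgebraicCurve Fermat.Agent.S26 Fermat.Agent.S37.Red Fermat.Agent.S15.W

variable {K F : Type*} [Field K] [Field F] [Algebra K F] [IsAlgClosed K] [CharZero K] [FF1 K F]
variable {e : ℕ}

theorem unitOn_sum {ι : Type*} {g : F} (hg : g ≠ 0) (s : Finset ι) (D : ι → Divisor K F)
    (h : ∀ i ∈ s, UnitOn g (D i)) : UnitOn g (∑ i ∈ s, D i) := by
  classical
  induction s using Finset.induction_on with
  | empty => simpa using unitOn_zero hg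
  | insert a s ha ih =>
    rw [Finset.sum_insert ha]
    exact (h a (Finset.mem_insert_self a s)).add (ih fun i hi => h i (Finset.mem_insert_of_mem hi))

theorem evalD_sum' {ι : Type*} {g : F} (hg : g ≠ 0) (s : Finset ι) (D : ι → Divisor K F)
    (h : ∀ i ∈ s, UnitOn g (D i)) : evalD g (∑ i ∈ s, D i) = ∏ i ∈ s, evalD g (D i) := by
  classical
  induction s using Finset.induction_on with
  | empty => simp [evalD_zero]
  | insert a s ha ih =>
    rw [Finset.sum_insert ha, Finset.prod_insert ha,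
      evalD_add (h a (Finset.mem_insert_self a s))
        (unitOn_sum hg s D fun i hi => h i (Finset.mem_insert_of_mem hi)),
      ih fun i hi => h i (Finset.mem_insert_of_mem hi)]

/-- reciprocity against `h` with `div h = e D'' - Dx`. -/
theorem evalD_div_of {h κ : F} (hh : h ≠ 0) (hκ : κ ≠ 0) {D'' Dx : Divisor K F}
    (hdiv : divisorOf (Ω := K) h = (e : ℤ) • D'' - Dx) (hd : Disj K h κ) (h1 : UnitOn κ D'')
    (h2 : UnitOn κ Dx) :
    evalD h (divisorOf (Ω := K) κ) = evalD κ D'' ^ e / evalD κ Dx := by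
  rw [weil_reciprocity hh hκ hd, hdiv, evalD_sub (h1.zsmul _) h2, evalD_zsmul, zpow_natCast]

/-- `h(D_g) / g(D'')`. -/
noncomputable def Xi (e : ℕ) (h : F) (D'' : Divisor K F) (g : F) : K :=
  evalD h (Dv K e g) / evalD g D''

theorem Xi_pow {h g : F} (hh : h ≠ 0) (hg : IsDm K e g) {D'' Dx : Divisor K F}
    (hdiv : divisorOf (Ω := K) h = (e : ℤ) • D'' - Dx) (hd : Disj K h g) (h1 : UnitOn g D'')
    (h2 : UnitOn g Dx) : Xi e h D'' g ^ e = (evalD g Dx)⁻¹ := by
  have n1 := h1.evalD_ne_zero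
  have n2 := h2.evalD_ne_zero
  unfold Xi
  rw [div_pow, ← zpow_natCast (evalD h _), ← evalD_zsmul, nsmul_Dv hg,
    evalD_div_of hh hg.1 hdiv hd h1 h2]
  field_simp

theorem Xi_smul (σ : SemilinearAut K F) (h g : F) (D'' : Divisor K F) :
    Xi e (σ • h) (σ • D'') (σ • g) = SemilinearAut.baseAut σ (Xi e h D'' g) := by
  unfold Xi
  rw [Dv_smul, evalD_smul, evalD_smul, map_div₀]

theorem Xi_mul_pow (he : e ≠ 0) {h g κ : F} (hh : h ≠ 0) (hg : IsDm K e g) (hκ : κ ≠ 0)
    {D'' Dx : Divisor K F} (hdiv : divisorOf (Ω := K) h = (e : ℤ) • D'' - Dx) (hd : Disj K h g)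
    (hd' : Disj K h κ) (h1 : UnitOn g D'') (h1' : UnitOn κ D'') (h2' : UnitOn κ Dx) :
    Xi e h D'' (g * κ ^ e) = Xi e h D'' g / evalD κ Dx := by
  have n1 := h1.evalD_ne_zero
  have n1' := h1'.evalD_ne_zero
  have n2' := h2'.evalD_ne_zero
  unfold Xi
  rw [Dv_mul_pow he hg hκ, evalD_add (unitOn_Dv hh hd e) (unitOn_divisorOf hh hd'),
    evalD_div_of hh hκ hdiv hd' h1' h2', evalD_mul h1 (h1'.pow e), evalD_pow h1']
  field_simp

theorem divisorOf_smul' (σ : SemilinearAut K F) (h : F) :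
    divisorOf (Ω := K) (σ • h) = σ • divisorOf (Ω := K) h := by
  ext v
  rw [divisorOf_apply, SemilinearAut.divisor_smul_apply, divisorOf_apply]
  have h1 := SemilinearAut.ord_smul σ (σ⁻¹ • v) h
  rwa [smul_inv_smul] at h1


/-- **(KUM)+(EV), abstract form.** -/
theorem kum_abs (he : e ≠ 0) (σ : SemilinearAut K F) {f h : F} (hf : IsDm K e f) (hσf : σ • f = f)
    (hh : h ≠ 0) (D' : Divisor K F) {ι : Type*} (s : Finset ι) (D : ι → Divisor K F)
    (hD : ∀ i ∈ s, σ • D i = D i)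
    (hdiv : divisorOf (Ω := K) h = (e : ℤ) • D' - ∑ i ∈ s, D i) (y : ι → F)
    (hy0 : ∀ i ∈ s, y i ≠ 0) (hy : ∀ i ∈ s, σ • y i = y i)
    (hU : ∀ i ∈ s, UnitOn (y i ^ e * f) (D i))
    (hroot : ∀ c : K, c ^ e = ∏ i ∈ s, evalD (y i ^ e * f) (D i) →
      SemilinearAut.baseAut σ c = c) :
    e1 K e (σ • h / h) f = 1 := by
  classical
  have heZ : (e : ℤ) ≠ 0 := Int.natCast_ne_zero.2 he
  set Dx := ∑ i ∈ s, D i with hDx
  have hσDx : σ • Dx = Dx := by
    rw [hDx, Finset.smul_sum]; exact Finset.sum_congr rfl hD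
  set T : Finset (Place K F) :=
    D'.support ∪ (σ • D').support ∪ s.biUnion (fun i => (D i).support) with hT
  obtain ⟨k, hk0, hk⟩ := exists_move he hf (T ∪ T.image (fun v => σ⁻¹ • v))
  set g := f * k ^ e with hgdef
  have hg : IsDm K e g := hf.mul (isDm_pow e hk0)
  have hgT : ∀ v ∈ T, v.ord g = 0 := fun v hv => hk v (Finset.mem_union_left _ hv)
  have hσg : σ • g = f * (σ • k) ^ e := by rw [hgdef, smul_mul', smul_pow', hσf]
  have hσgT : ∀ v ∈ T, v.ord (σ • g) = 0 := by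
    intro v hv
    have h1 := SemilinearAut.ord_smul σ (σ⁻¹ • v) g
    rw [smul_inv_smul] at h1
    rw [h1]
    exact hk _ (Finset.mem_union_right _ (Finset.mem_image_of_mem _ hv))
  have hσk0 : σ • k ≠ 0 := by rwa [Ne, smul_eq_zero_iff_eq]
  set κ := k / (σ • k) with hκdef
  have hκ0 : κ ≠ 0 := div_ne_zero hk0 hσk0
  have hgκ : g = σ • g * κ ^ e := by
    rw [hσg, hκdef, hgdef, div_pow]; field_simp
  have hσg0 : σ • g ≠ 0 := by rw [Ne, smul_eq_zero_iff_eq]; exact hg.1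
  have hκT : ∀ v ∈ T, v.ord κ = 0 := by
    intro v hv
    have h1 : v.ord g = v.ord (σ • g) + e * v.ord κ := by
      conv_lhs => rw [hgκ]
      rw [v.ord_mul hσg0 (pow_ne_zero _ hκ0), ← zpow_natCast, v.ord_zpow]
    rw [hgT v hv, hσgT v hv, zero_add] at h1
    exact (mul_eq_zero.1 h1.symm).resolve_left heZ
  have sD' : D'.support ⊆ T := fun v hv =>
    Finset.mem_union_left _ (Finset.mem_union_left _ hv)
  have sσD' : (σ • D').support ⊆ T := fun v hv =>
    Finset.mem_union_left _ (Finset.mem_union_right _ hv)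
  have sDi : ∀ i ∈ s, (D i).support ⊆ T := fun i hi v hv =>
    Finset.mem_union_right _ (Finset.mem_biUnion.2 ⟨i, hi, hv⟩)
  have sDx : Dx.support ⊆ T := fun v hv => by
    have := Finsupp.support_finsetSum hv
    exact Finset.mem_union_right _ this
  have hdivσ : divisorOf (Ω := K) (σ • h) = (e : ℤ) • (σ • D') - Dx := by
    rw [divisorOf_smul', hdiv, smul_sub, hσDx, smul_comm]
  have ordT : ∀ (φ : F) (E : Divisor K F), E.support ⊆ T →
      divisorOf (Ω := K) φ = (e : ℤ) • E - Dx → ∀ v, v ∉ T → v.ord φ = 0 := by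
    intro φ E hE hφ v hv
    have h1 := DFunLike.congr_fun hφ v
    rw [divisorOf_apply, Finsupp.sub_apply, Finsupp.smul_apply,
      Finsupp.notMem_support_iff.1 (fun h => hv (hE h)),
      Finsupp.notMem_support_iff.1 (fun h => hv (sDx h))] at h1
    simpa using h1
  have hhT := ordT h D' sD' hdiv
  have hσhT := ordT (σ • h) (σ • D') sσD' hdivσ
  have hUn : ∀ (φ : F), φ ≠ 0 → (∀ v ∈ T, v.ord φ = 0) → ∀ E : Divisor K F, E.support ⊆ T →
      UnitOn φ E := fun φ h0 h1 E hE => ⟨h0, fun v hv => h1 v (hE (Finsupp.mem_support_iff.2 hv))⟩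
  have dj : ∀ (φ ψ : F), (∀ v, v ∉ T → v.ord φ = 0) → (∀ v ∈ T, v.ord ψ = 0) → Disj K φ ψ := by
    intro φ ψ h1 h2 v
    by_cases hv : v ∈ T
    · exact Or.inr (h2 v hv)
    · exact Or.inl (h1 v hv)
  have hσh0 : σ • h ≠ 0 := by rwa [Ne, smul_eq_zero_iff_eq]
  set a := σ • h / h with hadef
  have ha0 : a ≠ 0 := div_ne_zero hσh0 hh
  have hDa : (e : ℤ) • (σ • D' - D') = divisorOf (Ω := K) a := by
    rw [hadef, div_eq_mul_inv, divisorOf_mul hσh0 (inv_ne_zero hh), divisorOf_inv, hdivσ, hdiv,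
      smul_sub]
    abel
  have haDm : IsDm K e a := ⟨ha0, fun v => by
    have h1 := DFunLike.congr_fun hDa v
    rw [divisorOf_apply, Finsupp.smul_apply, smul_eq_mul] at h1
    exact ⟨_, h1.symm⟩⟩
  have hDva : Dv K e a = σ • D' - D' := (eq_Dv he hDa).symm
  have haT : ∀ v, v ∉ T → v.ord a = 0 := by
    intro v hv
    rw [hadef, div_eq_mul_inv, v.ord_mul hσh0 (inv_ne_zero hh), v.ord_inv, hσhT v hv, hhT v hv]
    simp
  have e1E : e1 K e a f = E K e a g := e1_eq_E_mul_pow he haDm hf hk0 (dj a g haT hgT)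
  have ugD' := hUn g hg.1 hgT _ sD'
  have ugσD' := hUn g hg.1 hgT _ sσD'
  have ugDx := hUn g hg.1 hgT _ sDx
  have uh := unitOn_Dv hh (dj _ _ hhT hgT) e
  have uσh := unitOn_Dv hσh0 (dj _ _ hσhT hgT) e
  have hE : E K e a g = Xi e (σ • h) (σ • D') g / Xi e h D' g := by
    have n1 := ugD'.evalD_ne_zero
    have n2 := ugσD'.evalD_ne_zero
    have n3 := uh.evalD_ne_zero
    have n4 := uσh.evalD_ne_zero
    unfold E Xi
    rw [hDva, hadef, evalD_div uσh uh, evalD_sub ugσD' ugD']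
    field_simp
  have uκDx := hUn κ hκ0 hκT _ sDx
  have hX1 : Xi e (σ • h) (σ • D') g
      = SemilinearAut.baseAut σ (Xi e h D' g) / evalD κ Dx := by
    conv_lhs => rw [hgκ]
    rw [Xi_mul_pow he hσh0 (hg.smul σ) hκ0 hdivσ (dj _ _ hσhT hσgT) (dj _ _ hσhT hκT)
      (hUn _ hσg0 hσgT _ sσD') (hUn κ hκ0 hκT _ sσD') uκDx, Xi_smul]
  set ξ := Xi e h D' g with hξdef
  have hξ : ξ ^ e = (evalD g Dx)⁻¹ := Xi_pow hh hg hdiv (dj _ _ hhT hgT) ugD' ugDx
  have hξ0 : ξ ≠ 0 := by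
    intro h0
    rw [h0, zero_pow he] at hξ
    exact inv_ne_zero ugDx.evalD_ne_zero hξ.symm
  -- local generators
  have hr : ∀ i ∈ s, g = (y i ^ e * f) * (k / y i) ^ e := by
    intro i hi
    have := hy0 i hi
    rw [hgdef, div_pow]; field_simp
  have hrU : ∀ i ∈ s, UnitOn (k / y i) (D i) := by
    intro i hi
    refine ⟨div_ne_zero hk0 (hy0 i hi), fun v hv => ?_⟩
    have h1 : v.ord g = v.ord (y i ^ e * f) + e * v.ord (k / y i) := by
      conv_lhs => rw [hr i hi]
      rw [v.ord_mul (hU i hi).1 (pow_ne_zero _ (div_ne_zero hk0 (hy0 i hi))),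
        ← zpow_natCast (k / y i), v.ord_zpow]
    rw [hgT v (sDi i hi (Finsupp.mem_support_iff.2 hv)), (hU i hi).2 v hv, zero_add] at h1
    exact (mul_eq_zero.1 h1.symm).resolve_left heZ
  set R := ∏ i ∈ s, evalD (k / y i) (D i) with hRdef
  have hgDx : evalD g Dx = (∏ i ∈ s, evalD (y i ^ e * f) (D i)) * R ^ e := by
    rw [hDx, evalD_sum' hg.1 s D (fun i hi => hUn g hg.1 hgT _ (sDi i hi)), hRdef,
      ← Finset.prod_pow, ← Finset.prod_mul_distrib]
    refine Finset.prod_congr rfl fun i hi => ?_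
    conv_lhs => rw [hr i hi]
    rw [evalD_mul (hU i hi) ((hrU i hi).pow e), evalD_pow (hrU i hi)]
  have hR0 : R ≠ 0 := Finset.prod_ne_zero_iff.2 fun i hi => (hrU i hi).evalD_ne_zero
  have hP0 : (∏ i ∈ s, evalD (y i ^ e * f) (D i)) ≠ 0 :=
    Finset.prod_ne_zero_iff.2 fun i hi => (hU i hi).evalD_ne_zero
  have hfix : SemilinearAut.baseAut σ ((ξ * R)⁻¹) = (ξ * R)⁻¹ := hroot _ (by
    rw [inv_pow, mul_pow, hξ, hgDx, mul_inv, inv_inv, mul_assoc,
      mul_inv_cancel₀ (pow_ne_zero e hR0), mul_one])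
  have hσR : R = SemilinearAut.baseAut σ R * evalD κ Dx := by
    rw [hRdef, map_prod, hDx,
      evalD_sum' hκ0 s D (fun i hi => hUn κ hκ0 hκT _ (sDi i hi)), ← Finset.prod_mul_distrib]
    refine Finset.prod_congr rfl fun i hi => ?_
    have h1 : SemilinearAut.baseAut σ (evalD (k / y i) (D i)) = evalD (σ • k / y i) (D i) := by
      rw [← evalD_smul, hD i hi, smul_div₀', hy i hi]
    have h2 : UnitOn (σ • k / y i) (D i) := by
      have := (hrU i hi).smul σ
      rwa [hD i hi, smul_div₀', hy i hi] at this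
    rw [h1, ← evalD_mul h2 (hUn κ hκ0 hκT _ (sDi i hi))]
    congr 1
    have := hy0 i hi
    rw [hκdef]; field_simp
  have hfix' : SemilinearAut.baseAut σ ξ * SemilinearAut.baseAut σ R = ξ * R := by
    rw [map_inv₀, map_mul] at hfix
    exact inv_injective hfix
  have hσR0 : SemilinearAut.baseAut σ R ≠ 0 := by
    rwa [Ne, map_eq_zero_iff _ (SemilinearAut.baseAut σ).injective]
  have hκDx0 := uκDx.evalD_ne_zero
  have hσξ : SemilinearAut.baseAut σ ξ = ξ * evalD κ Dx := by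
    apply mul_right_cancel₀ hσR0
    rw [hfix']
    conv_lhs => rw [hσR]
    ring
  rw [e1E, hE, hX1, hσξ]
  field_simp

end Fermat.Agent.S43.EV
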