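import Fermat.Agent.S37.Red.Val

/-!
# S43 / EV / Cen : the centre of a `K`-place on a chart ring of an integral model, and local generators as functions of the centre

`K` algebraically closed, `F / K` a function field, `A` a valuation ring of `K` whose residue field is algebraic over a finite field (`hres`).
`O` a ring (chart ring of a model over a small DVR), `χ : O →+* F`.

* `IntAt A χ v` : all `χ x` are regular at `v`, with value in `A`;
* `cen A χ v h : Ideal O` : `{x | (χ x)(v) ∈ 𝔪_A}`; maximal; invariant under semilinear automorphisms of "inertia type" fixing `χ`;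
* `exists_loc` : two charts, local statements `s (y ^ m W) = t` at all the relevant maximal ideals
  `⟹` functions `y u : Place K F → F` with `W = (y v) ^ m * u v`, `u v` a unit at `v` with unit value, constant on inertia orbits.
-/

set_option autoImplicit false
set_option linter.unusedSectionVars false

namespace Fermat.Agent.S43.EV

open AlgebraicCurve Fermat.Agent.S26 Fermat.Agent.S37.Red

variable {K F : Type*} [Field K] [Field F] [Algebra K F] [IsAlgClosed K] [FF1 K F]
variable {O : Type*} [CommRing O]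

/-- all the `χ x` are regular at `v`, with values in `A`. -/
def IntAt (A : ValuationSubring K) (χ : O →+* F) (v : Place K F) : Prop :=
  ∀ x, Reg v (χ x) ∧ val v (χ x) ∈ A

/-- the centre of `v` on `O`. -/
def cen (A : ValuationSubring K) (χ : O →+* F) (v : Place K F) (h : IntAt A χ v) : Ideal O where
  carrier := {x | A.valuation (val v (χ x)) < 1}
  zero_mem' := by
    show A.valuation (val v (χ 0)) < 1
    rw [map_zero, val_zero, map_zero]
    exact zero_lt_one
  add_mem' := by
    intro a b ha hb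
    show A.valuation (val v (χ (a + b))) < 1
    rw [map_add, val_add v (h a).1 (h b).1]
    exact lt_of_le_of_lt (A.valuation.map_add _ _) (max_lt ha hb)
  smul_mem' := by
    intro c x hx
    show A.valuation (val v (χ (c • x))) < 1
    rw [smul_eq_mul, map_mul, val_mul v (h c).1 (h x).1, map_mul]
    exact mul_lt_one_of_nonneg_of_lt_one_right ((A.valuation_le_one_iff _).2 (h c).2) zero_le hx

variable {A : ValuationSubring K} {χ : O →+* F} {v : Place K F}

theorem mem_cen {h : IntAt A χ v} {x : O} : x ∈ cen A χ v h ↔ A.valuation (val v (χ x)) < 1 :=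
  Iff.rfl

theorem valuation_eq_one_of_notMem {h : IntAt A χ v} {x : O} (hx : x ∉ cen A χ v h) :
    A.valuation (val v (χ x)) = 1 :=
  le_antisymm ((A.valuation_le_one_iff _).2 (h x).2) (not_lt.1 hx)

theorem val_ne_zero_of_notMem {h : IntAt A χ v} {x : O} (hx : x ∉ cen A χ v h) :
    val v (χ x) ≠ 0 := by
  intro h0
  have := valuation_eq_one_of_notMem hx
  rw [h0, map_zero] at this
  exact zero_ne_one this

theorem ord_eq_zero_of_notMem {h : IntAt A χ v} {x : O} (hx : x ∉ cen A χ v h) :
    v.ord (χ x) = 0 :=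
  ord_eq_zero_of_reg_of_not_van v (h x).1 fun hv =>
    val_ne_zero_of_notMem hx ((val_eq_zero_iff v (h x).1).2 hv)

theorem ne_zero_of_notMem {h : IntAt A χ v} {x : O} (hx : x ∉ cen A χ v h) : χ x ≠ 0 := by
  intro h0
  apply val_ne_zero_of_notMem hx
  rw [h0, val_zero]

theorem cen_isMaximal (hres : ∀ c : K, A.valuation c = 1 → ∃ N : ℕ, 0 < N ∧ A.valuation (c ^ N - 1) < 1)
    (h : IntAt A χ v) : (cen A χ v h).IsMaximal := by
  rw [Ideal.isMaximal_iff]
  refine ⟨fun h1 => ?_, fun J x hJ hx hxJ => ?_⟩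
  · rw [mem_cen, map_one, val_one, map_one] at h1
    exact lt_irrefl _ h1
  · obtain ⟨N, hN, h1⟩ := hres _ (valuation_eq_one_of_notMem hx)
    have h2 : x ^ N - 1 ∈ cen A χ v h := by
      rw [mem_cen, map_sub, map_pow, map_one, val_sub v (Reg.pow v (h x).1 N) (reg_one v),
        val_pow v (h x).1, val_one]
      exact h1
    have h3 : (1 : O) = x ^ N - (x ^ N - 1) := by ring
    rw [h3]
    exact sub_mem (Ideal.pow_mem_of_mem _ hxJ _ hN) (hJ h2)

/-! ### semilinear automorphisms of inertia type -/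

/-- `σ` fixes `χ`, its base automorphism preserves `A` and is trivial on the residue field. -/
structure InType (A : ValuationSubring K) (χ : O →+* F) (σ : SemilinearAut K F) : Prop where
  fix : ∀ x, σ • χ x = χ x
  triv : ∀ c ∈ A, A.valuation (SemilinearAut.baseAut σ c - c) < 1
  back : ∀ c, SemilinearAut.baseAut σ c ∈ A → c ∈ A

theorem InType.mem {σ : SemilinearAut K F} (hσ : InType A χ σ) {c : K} (hc : c ∈ A) :
    SemilinearAut.baseAut σ c ∈ A := by
  have h1 : SemilinearAut.baseAut σ c - c ∈ A :=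
    (A.valuation_le_one_iff _).1 (hσ.triv c hc).le
  have h2 : SemilinearAut.baseAut σ c = (SemilinearAut.baseAut σ c - c) + c := by ring
  rw [h2]
  exact A.add_mem _ _ h1 hc

theorem InType.val_eq {σ : SemilinearAut K F} (hσ : InType A χ σ) (x : O) :
    val (σ • v) (χ x) = SemilinearAut.baseAut σ (val v (χ x)) := by
  conv_lhs => rw [← hσ.fix x]
  exact val_smul v σ _

theorem InType.reg_iff {σ : SemilinearAut K F} (hσ : InType A χ σ) (x : O) :
    Reg (σ • v) (χ x) ↔ Reg v (χ x) := by
  conv_lhs => rw [← hσ.fix x]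
  exact reg_smul_iff v σ

theorem InType.intAt_iff {σ : SemilinearAut K F} (hσ : InType A χ σ) :
    IntAt A χ (σ • v) ↔ IntAt A χ v := by
  constructor
  · intro h x
    refine ⟨(hσ.reg_iff x).1 (h x).1, hσ.back _ ?_⟩
    rw [← hσ.val_eq]
    exact (h x).2
  · intro h x
    refine ⟨(hσ.reg_iff x).2 (h x).1, ?_⟩
    rw [hσ.val_eq]
    exact hσ.mem (h x).2

theorem InType.lt_one_iff {σ : SemilinearAut K F} (hσ : InType A χ σ) {c : K} (hc : c ∈ A) :
    A.valuation (SemilinearAut.baseAut σ c) < 1 ↔ A.valuation c < 1 := by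
  have h1 := hσ.triv c hc
  constructor
  · intro h
    have h2 : c = SemilinearAut.baseAut σ c - (SemilinearAut.baseAut σ c - c) := by ring
    rw [h2]
    exact lt_of_le_of_lt (A.valuation.map_sub _ _) (max_lt h h1)
  · intro h
    have h2 : SemilinearAut.baseAut σ c = (SemilinearAut.baseAut σ c - c) + c := by ring
    rw [h2]
    exact lt_of_le_of_lt (A.valuation.map_add _ _) (max_lt h1 h)

theorem InType.cen_eq {σ : SemilinearAut K F} (hσ : InType A χ σ) (h : IntAt A χ v)
    (h' : IntAt A χ (σ • v)) : cen A χ (σ • v) h' = cen A χ v h := by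
  ext x
  rw [mem_cen, mem_cen, hσ.val_eq, hσ.lt_one_iff (h x).2]

/-! ### one chart -/

section Chart

variable {F0 : Type*} [Field F0] [Algebra O F0] (β : F0 →+* F)

/-- the local statement at `n`. -/
def LocAt (m : ℕ) (W0 : F0) (n : Ideal O) : Prop :=
  ∃ (y : F0) (s t : O), y ≠ 0 ∧ s ∉ n ∧ t ∉ n ∧
    algebraMap O F0 s * (y ^ m * W0) = algebraMap O F0 t

open Classical in
/-- a chosen pair `(y⁻¹, t / s)` at `n`. -/
noncomputable def pick (m : ℕ) (W0 : F0) (n : Ideal O) : F0 × F0 :=
  if h : LocAt m W0 n then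
    (h.choose⁻¹, algebraMap O F0 h.choose_spec.choose_spec.choose /
      algebraMap O F0 h.choose_spec.choose)
  else (1, W0)

theorem pick_alg {y S T W : F0} {m : ℕ} (hy : y ≠ 0) (hS : S ≠ 0) (e : S * (y ^ m * W) = T) :
    W = (y⁻¹) ^ m * (T / S) := by
  have hy' := pow_ne_zero m hy
  rw [← e, inv_pow]
  field_simp

theorem pick_spec {m : ℕ} {W0 : F0} {n : Ideal O} (h : LocAt m W0 n) :
    ∃ (s t : O), s ∉ n ∧ t ∉ n ∧ (pick m W0 n).2 = algebraMap O F0 t / algebraMap O F0 s ∧
      ((algebraMap O F0 s ≠ 0) → W0 = (pick m W0 n).1 ^ m * (pick m W0 n).2) := by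
  classical
  have hp : pick m W0 n = (h.choose⁻¹, algebraMap O F0 h.choose_spec.choose_spec.choose /
      algebraMap O F0 h.choose_spec.choose) := dif_pos h
  obtain ⟨hy, hs, ht, e⟩ := h.choose_spec.choose_spec.choose_spec
  refine ⟨_, _, hs, ht, by rw [hp], fun hs0 => ?_⟩
  rw [hp]
  exact pick_alg hy hs0 e

/-- the chosen pair at the centre of `v`. -/
theorem chart_spec {m : ℕ} {W0 : F0} (h : IntAt A (β.comp (algebraMap O F0)) v)
    (hl : LocAt m W0 (cen A (β.comp (algebraMap O F0)) v h)) :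
    β W0 = β (pick m W0 (cen A (β.comp (algebraMap O F0)) v h)).1 ^ m *
        β (pick m W0 (cen A (β.comp (algebraMap O F0)) v h)).2 ∧
      v.ord (β (pick m W0 (cen A (β.comp (algebraMap O F0)) v h)).2) = 0 ∧
      A.valuation (val v (β (pick m W0 (cen A (β.comp (algebraMap O F0)) v h)).2)) = 1 := by
  obtain ⟨s, t, hs, ht, e2, e1⟩ := pick_spec hl
  have hs1 : β (algebraMap O F0 s) ≠ 0 := ne_zero_of_notMem (χ := β.comp (algebraMap O F0)) hs
  have ht1 : β (algebraMap O F0 t) ≠ 0 := ne_zero_of_notMem (χ := β.comp (algebraMap O F0)) ht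
  have hs0 : algebraMap O F0 s ≠ 0 := fun h0 => hs1 (by rw [h0, map_zero])
  refine ⟨?_, ?_, ?_⟩
  · conv_lhs => rw [e1 hs0]
    rw [map_mul, map_pow]
  · rw [e2, map_div₀, div_eq_mul_inv, v.ord_mul ht1 (inv_ne_zero hs1), v.ord_inv]
    have a1 : v.ord (β (algebraMap O F0 t)) = 0 := ord_eq_zero_of_notMem (χ := β.comp (algebraMap O F0)) ht
    have a2 : v.ord (β (algebraMap O F0 s)) = 0 := ord_eq_zero_of_notMem (χ := β.comp (algebraMap O F0)) hs
    rw [a1, a2]
    ring
  · have hv : ¬ Van v (β (algebraMap O F0 s)) := fun hv =>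
      val_ne_zero_of_notMem (χ := β.comp (algebraMap O F0)) hs ((val_eq_zero_iff v (h s).1).2 hv)
    have r1 : Reg v (β (algebraMap O F0 t)) := (h t).1
    have r2 : Reg v (β (algebraMap O F0 s)) := (h s).1
    rw [e2, map_div₀, val_div v r1 r2 hv, map_div₀]
    have a1 : A.valuation (val v (β (algebraMap O F0 t))) = 1 := valuation_eq_one_of_notMem (χ := β.comp (algebraMap O F0)) ht
    have a2 : A.valuation (val v (β (algebraMap O F0 s))) = 1 := valuation_eq_one_of_notMem (χ := β.comp (algebraMap O F0)) hs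
    rw [a1, a2, div_one]

end Chart

/-! ### two charts -/

section Two

variable {O₁ O₂ F0 : Type*} [CommRing O₁] [CommRing O₂] [Field F0] [Algebra O₁ F0] [Algebra O₂ F0]

/-- **local generators as functions of the centre.** -/
theorem exists_loc (A : ValuationSubring K) (β : F0 →+* F)
    (hres : ∀ c : K, A.valuation c = 1 → ∃ N : ℕ, 0 < N ∧ A.valuation (c ^ N - 1) < 1)
    {m : ℕ} {W0 : F0} {π₁ : O₁} {π₂ x₂ : O₂}
    (hπ₁ : ∀ v : Place K F, A.valuation (val v (β (algebraMap O₁ F0 π₁))) < 1)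
    (hπ₂ : ∀ v : Place K F, A.valuation (val v (β (algebraMap O₂ F0 π₂))) < 1)
    (hcov : ∀ v : Place K F, ¬ IntAt A (β.comp (algebraMap O₁ F0)) v →
      ∃ h : IntAt A (β.comp (algebraMap O₂ F0)) v, x₂ ∈ cen A (β.comp (algebraMap O₂ F0)) v h)
    (hloc₁ : ∀ n : Ideal O₁, n.IsMaximal → π₁ ∈ n → LocAt m W0 n)
    (hloc₂ : ∀ n : Ideal O₂, n.IsMaximal → π₂ ∈ n → x₂ ∈ n → LocAt m W0 n) :
    ∃ y u : Place K F → F,
      (∀ v, β W0 = y v ^ m * u v) ∧ (∀ v, y v ∈ Set.range β ∧ u v ∈ Set.range β) ∧
      (∀ v, v.ord (u v) = 0 ∧ A.valuation (val v (u v)) = 1) ∧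
      ∀ σ : SemilinearAut K F, InType A (β.comp (algebraMap O₁ F0)) σ →
        InType A (β.comp (algebraMap O₂ F0)) σ → ∀ v, y (σ • v) = y v ∧ u (σ • v) = u v := by
  classical
  let pr : Place K F → F0 × F0 := fun v =>
    if h : IntAt A (β.comp (algebraMap O₁ F0)) v then
      pick m W0 (cen A (β.comp (algebraMap O₁ F0)) v h)
    else if h2 : IntAt A (β.comp (algebraMap O₂ F0)) v then
      pick m W0 (cen A (β.comp (algebraMap O₂ F0)) v h2)
    else (1, W0)
  have key : ∀ v, β W0 = β (pr v).1 ^ m * β (pr v).2 ∧ v.ord (β (pr v).2) = 0 ∧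
      A.valuation (val v (β (pr v).2)) = 1 := by
    intro v
    by_cases h : IntAt A (β.comp (algebraMap O₁ F0)) v
    · have hp : pr v = pick m W0 (cen A (β.comp (algebraMap O₁ F0)) v h) := dif_pos h
      rw [hp]
      exact chart_spec β h (hloc₁ _ (cen_isMaximal hres h) (hπ₁ v))
    · obtain ⟨h2, hx⟩ := hcov v h
      have hp : pr v = pick m W0 (cen A (β.comp (algebraMap O₂ F0)) v h2) := by
        show (if h : IntAt A (β.comp (algebraMap O₁ F0)) v then _ else _) = _
        rw [dif_neg h, dif_pos h2]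
      rw [hp]
      exact chart_spec β h2 (hloc₂ _ (cen_isMaximal hres h2) (hπ₂ v) hx)
  refine ⟨fun v => β (pr v).1, fun v => β (pr v).2, fun v => (key v).1,
    fun v => ⟨⟨_, rfl⟩, ⟨_, rfl⟩⟩, fun v => (key v).2, fun σ h₁ h₂ v => ?_⟩
  have hpr : pr (σ • v) = pr v := by
    by_cases h : IntAt A (β.comp (algebraMap O₁ F0)) v
    · have h' := h₁.intAt_iff.2 h
      have e1 : pr v = pick m W0 (cen A (β.comp (algebraMap O₁ F0)) v h) := dif_pos h
      have e2 : pr (σ • v) = pick m W0 (cen A (β.comp (algebraMap O₁ F0)) (σ • v) h') := dif_pos h'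
      rw [e1, e2, h₁.cen_eq h h']
    · have h' : ¬ IntAt A (β.comp (algebraMap O₁ F0)) (σ • v) := fun hh => h (h₁.intAt_iff.1 hh)
      by_cases g : IntAt A (β.comp (algebraMap O₂ F0)) v
      · have g' := h₂.intAt_iff.2 g
        have e1 : pr v = pick m W0 (cen A (β.comp (algebraMap O₂ F0)) v g) := by
          show (if h : IntAt A (β.comp (algebraMap O₁ F0)) v then _ else _) = _
          rw [dif_neg h, dif_pos g]
        have e2 : pr (σ • v) = pick m W0 (cen A (β.comp (algebraMap O₂ F0)) (σ • v) g') := by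
          show (if h : IntAt A (β.comp (algebraMap O₁ F0)) (σ • v) then _ else _) = _
          rw [dif_neg h', dif_pos g']
        rw [e1, e2, h₂.cen_eq g g']
      · have g' : ¬ IntAt A (β.comp (algebraMap O₂ F0)) (σ • v) := fun hh => g (h₂.intAt_iff.1 hh)
        have e1 : pr v = (1, W0) := by
          show (if h : IntAt A (β.comp (algebraMap O₁ F0)) v then _ else _) = _
          rw [dif_neg h, dif_neg g]
        have e2 : pr (σ • v) = (1, W0) := by
          show (if h : IntAt A (β.comp (algebraMap O₁ F0)) (σ • v) then _ else _) = _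
          rw [dif_neg h', dif_neg g']
        rw [e1, e2]
  exact ⟨by show β (pr (σ • v)).1 = β (pr v).1; rw [hpr],
    by show β (pr (σ • v)).2 = β (pr v).2; rw [hpr]⟩

end Two

end Fermat.Agent.S43.EV
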