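import Fermat.Agent.S43.EV.Cen
import Fermat.Agent.S44.Bridge.Centre

/-!
# S43 / EV / Int : `IntAt` for chart rings which are integral over `A₀[X]`, and the dichotomy of the two charts `X`, `1/X`

* `IntAt.of_isIntegral` : `IntAt` passes to integral extensions;
* `intAt_poly`, `intAt_chart` : `IntAt` from "the coordinate is regular at `v` with value in `A`";
* `inv_of_not` : otherwise `1/X` is regular at `v` with value in `𝔪_A`;
* `cov` : the hypothesis `hcov` of `exists_loc`.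
-/

set_option autoImplicit false
set_option linter.unusedSectionVars false

namespace Fermat.Agent.S43.EV

open AlgebraicCurve Fermat.Agent.S26 Fermat.Agent.S37.Red Polynomial

variable {K F : Type*} [Field K] [Field F] [Algebra K F] [IsAlgClosed K] [FF1 K F]
variable {O : Type*} [CommRing O]
variable {A : ValuationSubring K} {v : Place K F}

/-- `IntAt` passes to integral extensions. -/
theorem IntAt.of_isIntegral {R : Type*} [CommRing R] [Algebra R O] [Algebra.IsIntegral R O]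
    {χ : O →+* F} (h : IntAt A (χ.comp (algebraMap R O)) v) : IntAt A χ v := by
  have hreg : ∀ x, Reg v (χ x) :=
    Fermat.Agent.S44.Bridge.reg_of_isIntegral χ v (fun c => (h c).1)
  intro x
  refine ⟨hreg x, ?_⟩
  obtain ⟨P, hP, h0⟩ := Algebra.IsIntegral.isIntegral (R := R) x
  have h1 : ((Fermat.Agent.S44.Bridge.evPlace χ v hreg).comp (algebraMap R O)).IsIntegralElem
      (Fermat.Agent.S44.Bridge.evPlace χ v hreg x) := by
    refine ⟨P, hP, ?_⟩
    rw [← Polynomial.hom_eval₂, h0, map_zero]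
  exact Fermat.Agent.S28.IntVal.mem_of_isIntegralElem A _ (fun c => (h c).2) h1

variable {A0 : Type*} [CommRing A0] {ι : A0 →+* K}

/-- `IntAt` on a polynomial ring. -/
theorem intAt_poly (hι : ∀ a, ι a ∈ A) (ψ : A0[X] →+* F)
    (hC : ∀ a, ψ (C a) = algebraMap K F (ι a)) (hX : Reg v (ψ X)) (hXA : val v (ψ X) ∈ A) :
    IntAt A ψ v := by
  intro P
  induction P using Polynomial.induction_on' with
  | add p q hp hq =>
    rw [map_add]
    exact ⟨Reg.add v hp.1 hq.1, by rw [val_add v hp.1 hq.1]; exact A.add_mem _ _ hp.2 hq.2⟩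
  | monomial n a =>
    rw [← C_mul_X_pow_eq_monomial, map_mul, map_pow, hC]
    refine ⟨Reg.mul v (reg_algebraMap v _) (Reg.pow v hX n), ?_⟩
    rw [val_mul v (reg_algebraMap v _) (Reg.pow v hX n), val_algebraMap, val_pow v hX]
    exact A.mul_mem _ _ (hι a) (pow_mem hXA n)

/-- `IntAt` on a chart ring. -/
theorem intAt_chart [Algebra A0[X] O] [Algebra.IsIntegral A0[X] O] (hι : ∀ a, ι a ∈ A)
    (χ : O →+* F) (hC : ∀ a, χ (algebraMap A0[X] O (C a)) = algebraMap K F (ι a))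
    (hX : Reg v (χ (algebraMap A0[X] O X))) (hXA : val v (χ (algebraMap A0[X] O X)) ∈ A) :
    IntAt A χ v :=
  IntAt.of_isIntegral (R := A0[X]) (intAt_poly hι (χ.comp (algebraMap A0[X] O)) hC hX hXA)

/-- the dichotomy. -/
theorem inv_of_not {x : F} (h : ¬ (Reg v x ∧ val v x ∈ A)) :
    Reg v x⁻¹ ∧ A.valuation (val v x⁻¹) < 1 := by
  by_cases hr : Reg v x
  · have hA : val v x ∉ A := fun hA => h ⟨hr, hA⟩
    have h0 : val v x ≠ 0 := fun h0 => hA (h0 ▸ A.zero_mem)
    have hv : ¬ Van v x := fun hv => h0 ((val_eq_zero_iff v hr).2 hv)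
    refine ⟨reg_inv_of_not_van v hv, ?_⟩
    rw [val_inv v hr, map_inv₀]
    have h1 : 1 < A.valuation (val v x) := by
      by_contra hle
      exact hA ((A.valuation_le_one_iff _).1 (not_lt.1 hle))
    exact inv_lt_one_of_one_lt₀ h1
  · have hv := van_inv_of_not_reg v hr
    refine ⟨hv.reg, ?_⟩
    rw [val_eq_zero_of_van v hv, map_zero]
    exact zero_lt_one

/-- **the two charts cover**: the hypothesis `hcov` of `exists_loc`. -/
theorem cov {O₁ O₂ : Type*} [CommRing O₁] [CommRing O₂] [Algebra A0[X] O₁] [Algebra A0[X] O₂]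
    [Algebra.IsIntegral A0[X] O₁] [Algebra.IsIntegral A0[X] O₂] (hι : ∀ a, ι a ∈ A)
    (χ₁ : O₁ →+* F) (χ₂ : O₂ →+* F)
    (hC₁ : ∀ a, χ₁ (algebraMap A0[X] O₁ (C a)) = algebraMap K F (ι a))
    (hC₂ : ∀ a, χ₂ (algebraMap A0[X] O₂ (C a)) = algebraMap K F (ι a))
    (hinv : χ₂ (algebraMap A0[X] O₂ X) = (χ₁ (algebraMap A0[X] O₁ X))⁻¹)
    (v : Place K F) (h : ¬ IntAt A χ₁ v) :
    ∃ h2 : IntAt A χ₂ v, algebraMap A0[X] O₂ X ∈ cen A χ₂ v h2 := by
  have h1 : ¬ (Reg v (χ₁ (algebraMap A0[X] O₁ X)) ∧ val v (χ₁ (algebraMap A0[X] O₁ X)) ∈ A) :=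
    fun hh => h (intAt_chart hι χ₁ hC₁ hh.1 hh.2)
  obtain ⟨h3, h4⟩ := inv_of_not h1
  rw [← hinv] at h3 h4
  exact ⟨intAt_chart hι χ₂ hC₂ h3 ((A.valuation_le_one_iff _).1 h4.le), h4⟩

end Fermat.Agent.S43.EV
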