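import Fermat.Agent.S43.Q.Dict
import Fermat.Agent.S44.Const.Places.Transfer

/-!
# S43 / EV / RedK : from `RedTo A` (over `ℚ̄`) back to `RedK r` (over the small DVR), for elements of the function field of `CtxQ`
-/

set_option autoImplicit false
set_option linter.unusedSectionVars false
set_option linter.style.haveILetI false

open Polynomial ModularCurve

namespace Fermat.Agent.S43.EV

open Fermat.Agent.Crux.G Fermat.Agent.SS.G2 Fermat.Agent.S44.Loc Fermat.Agent.SS.GM2
open Fermat.Agent.S44.Bridge Fermat.Agent.S43.Q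
open Fermat.Agent.ES (Qb FF kA resA)
open Fermat.Agent.SS (RedTo cst cstk)
open Fermat.Agent.Crux.GM (castS)
open Fermat.Agent.S44.Const.Places (Compat)

/-- two Gauss units which differ by a constant: the constant is a unit. -/
theorem valuation_eq_one_of_redTo {AA : ValuationSubring Qb} {x : LaurentSeries Qb} {c : Qb}
    {φ ψ : LaurentSeries (kA AA)} (h : RedTo AA x φ) (hφ : φ ≠ 0) (h' : RedTo AA (x * cst c) ψ)
    (hψ : ψ ≠ 0) : AA.valuation c = 1 := by
  have hx : x ≠ 0 := by
    rintro rfl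
    have h0 : RedTo AA (0 : LaurentSeries Qb) 0 := by
      refine ⟨0, 1, ?_, ?_, ?_⟩
      · rw [map_one]; exact one_ne_zero
      · rw [map_zero, zero_mul]
      · rw [map_zero, zero_mul]
    exact hφ (h.unique h0)
  have h1 : RedTo AA (cst c) (φ⁻¹ * ψ) := by
    refine ((h.inv hφ).mul h').congr ?_ rfl
    rw [← mul_assoc, inv_mul_cancel₀ hx, one_mul]
  obtain ⟨a, ha, hr⟩ := h1.const
  have hne : resA AA a ≠ 0 := by
    intro h0
    rw [h0, cstk, map_zero] at hr
    exact mul_ne_zero (inv_ne_zero hφ) hψ hr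
  rw [← ha]
  refine le_antisymm ((AA.valuation_le_one_iff _).2 a.2) (not_lt.1 fun hlt => hne ?_)
  exact (IsLocalRing.residue_eq_zero_iff a).2 ((AA.valuation_lt_one_iff a).2 hlt)

noncomputable section

variable {M ℓ : ℕ} [NeZero M] [NeZero ℓ]
variable {A K k : Type} [CommRing A] [IsDomain A] [IsDiscreteValuationRing A] [Field K]
  [CharZero K] [Algebra A K] [IsFractionRing A K] [Field k] [Finite k]
  {r : A →+* k} {π : A}
variable {F : Type} [Field F] [Algebra A F] {Φ : F →+* LaurentSeries K} {w : F →+* F}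
variable {E : Type} [Field E] [CharZero E] [Algebra A E] [Algebra E F] [IsScalarTower A E F]
  [FiniteDimensional E F]

/-- **`RedTo` over `ℚ̄` ⟹ `RedK` over the small DVR.** -/
theorem redK_of_redTo {X : E} (C : CtxQ M ℓ r π Φ w X) [Algebra K Qb] {AA : ValuationSubring Qb}
    {e₀ : k →+* kA AA} (Cp : Compat AA (K := K) r e₀)
    (hπ : AA.valuation (algebraMap K Qb (algebraMap A K π)) < 1) {W : F}
    {φ : LaurentSeries (kA AA)} (h : RedTo AA (coeffMap (algebraMap K Qb) (Φ W)) φ) (hφ : φ ≠ 0) :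
    ∃ φ' : LaurentSeries k, φ' ≠ 0 ∧ RedK r (Φ W) φ' := by
  letI := algE (A := A) X
  letI := algL (A := A) F X
  haveI := isFractionRing_algE C.hXt C.hgen
  haveI : IsScalarTower A[X] E F := isScalarTower_alg X
  haveI : IsNoetherianRing (SM A F) := isNoetherianRing_SM E
  haveI : IsFractionRing (SM A F) F := isFractionRing_SM E
  obtain ⟨B, G, -⟩ := C.exists_good0
  have hW0 : W ≠ 0 := by
    rintro rfl
    rw [map_zero, map_zero] at h
    have h0 : RedTo AA (0 : LaurentSeries Qb) 0 := by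
      refine ⟨0, 1, ?_, ?_, ?_⟩
      · rw [map_one]; exact one_ne_zero
      · rw [map_zero, zero_mul]
      · rw [map_zero, zero_mul]
    exact hφ (h.unique h0)
  obtain ⟨j, hj⟩ := exists_vEq (G.locPrin₁ E) hW0
  obtain ⟨s, o, hs, ho, hred⟩ := G.redData₁.of_vEq hj
  have h2 := Cp.redTo hred
  have hc : coeffMap (algebraMap K Qb) (Φ W * (HahnSeries.C (algebraMap A K π) : LaurentSeries K) ^ (-j))
      = coeffMap (algebraMap K Qb) (Φ W) * cst ((algebraMap K Qb (algebraMap A K π)) ^ (-j)) := by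
    rw [map_mul, map_zpow₀, Fermat.Agent.S28.Build.coeffMap_C, Fermat.Agent.S28.C_eq_algebraMap,
      cst, map_zpow₀]
  rw [hc] at h2
  have hne : coeffMap e₀ (r₁ B o / r₁ B s) ≠ 0 := by
    rw [Ne, map_eq_zero]
    exact div_ne_zero ho hs
  have h3 := valuation_eq_one_of_redTo h hφ h2 hne
  have hj0 : j = 0 := by
    rw [map_zpow₀] at h3
    obtain ⟨n, rfl | rfl⟩ := j.eq_nat_or_neg
    · rw [zpow_neg, zpow_natCast, inv_eq_one] at h3
      by_contra hn
      have hn' : n ≠ 0 := fun h0 => hn (by rw [h0]; rfl)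
      exact hπ.ne ((pow_eq_one_iff_of_nonneg zero_le hn').mp h3)
    · rw [neg_neg, zpow_natCast] at h3
      by_contra hn
      have hn' : n ≠ 0 := fun h0 => hn (by rw [h0]; rfl)
      exact hπ.ne ((pow_eq_one_iff_of_nonneg zero_le hn').mp h3)
  subst hj0
  refine ⟨_, div_ne_zero ho hs, hred.congr ?_ rfl⟩
  rw [neg_zero, zpow_zero, mul_one]

end

end Fermat.Agent.S43.EV
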