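import Fermat.Agent.S43.EV.EVq
import Fermat.Agent.S43.EV.InT
import Fermat.Agent.S43.EV.Int
import Fermat.Agent.S43.EV.RedK
import Fermat.Agent.S43.Q.Inst
import Fermat.Agent.S43.QF.Coeff

/-!
# S43 / EV / Fin : (EV) for a function which is a Gauss unit at both components
-/

set_option autoImplicit false
set_option linter.unusedSectionVars false
set_option linter.style.haveILetI false

open AlgebraicCurve ModularCurve Polynomial

namespace Fermat.Agent.S43.EV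

open Fermat.Agent.S26 Fermat.Agent.S37.Red Fermat.Agent.S15.W
open Fermat.Agent.ES Fermat.Agent.S43.KUM
open Fermat.Agent.Crux.G Fermat.Agent.S44.Bridge

/-- two abstract charts: `exists_loc` + `cov` + `InType` for inertia. -/
theorem exists_yu_abs {A0 O₁ O₂ F0 : Type*} [CommRing A0] [CommRing O₁] [CommRing O₂] [Field F0]
    [Algebra O₁ F0] [Algebra O₂ F0] [Algebra A0[X] O₁] [Algebra A0[X] O₂]
    [Algebra.IsIntegral A0[X] O₁] [Algebra.IsIntegral A0[X] O₂]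
    {N q : ℕ} [NeZero N] (hq : q.Prime) {AA : ValuationSubring Qb} (hA : AA.LiesOverPrime q)
    (β : F0 →+* FF N) (ι : A0 →+* Qb) (hι : ∀ a, ι a ∈ AA) (π : A0) (hπ : AA.valuation (ι π) < 1)
    (hC₁ : ∀ a, β (algebraMap O₁ F0 (algebraMap A0[X] O₁ (C a))) = algebraMap Qb (FF N) (ι a))
    (hC₂ : ∀ a, β (algebraMap O₂ F0 (algebraMap A0[X] O₂ (C a))) = algebraMap Qb (FF N) (ι a))
    (hinv : β (algebraMap O₂ F0 (algebraMap A0[X] O₂ X))
      = (β (algebraMap O₁ F0 (algebraMap A0[X] O₁ X)))⁻¹)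
    (hfix : ∀ s ∈ AA.inertiaSubgroupIn ℚ, ∀ f, galF N s (β f) = β f)
    {m : ℕ} {W : F0}
    (h₁ : ∀ n : Ideal O₁, n.IsMaximal → algebraMap A0[X] O₁ (C π) ∈ n → LocAt m W n)
    (h₂ : ∀ n : Ideal O₂, n.IsMaximal → algebraMap A0[X] O₂ (C π) ∈ n →
      algebraMap A0[X] O₂ X ∈ n → LocAt m W n) :
    ∃ y u : Place Qb (FF N) → FF N, (∀ v, β W = y v ^ m * u v) ∧
      (∀ s ∈ AA.inertiaSubgroupIn ℚ, ∀ v, galF N s (y v) = y v) ∧
      (∀ v, AA.valuation (val v (u v)) = 1) ∧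
      (∀ s ∈ AA.inertiaSubgroupIn ℚ, ∀ v, y (aG N s • v) = y v) := by
  obtain ⟨y, u, h1, h2, h3, h4⟩ := exists_loc AA β (hres_Qb hq hA) (m := m) (W0 := W)
    (π₁ := algebraMap A0[X] O₁ (C π)) (π₂ := algebraMap A0[X] O₂ (C π))
    (x₂ := algebraMap A0[X] O₂ X)
    (fun v => by rw [hC₁, val_algebraMap]; exact hπ)
    (fun v => by rw [hC₂, val_algebraMap]; exact hπ)
    (cov hι (β.comp (algebraMap O₁ F0)) (β.comp (algebraMap O₂ F0)) hC₁ hC₂ hinv) h₁ h₂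
  refine ⟨y, u, h1, fun s hs v => ?_, fun v => (h3 v).2, fun s hs v => ?_⟩
  · obtain ⟨f, hf⟩ := (h2 v).1
    rw [← hf]
    exact hfix s hs f
  · exact (h4 (aG N s) (inType_inertia _ hs fun x => hfix s hs _)
      (inType_inertia _ hs fun x => hfix s hs _) v).1

/-- the two charts `X`, `1/X` of a tower `A0 → E → F`. -/
theorem exists_yu {A0 E F : Type*} [CommRing A0] [Field E] [Field F] [Algebra A0 E] [Algebra E F]
    [Algebra A0 F] [IsScalarTower A0 E F] (x : E) (π : A0)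
    {N q : ℕ} [NeZero N] (hq : q.Prime) {AA : ValuationSubring Qb} (hA : AA.LiesOverPrime q)
    (β : F →+* FF N) (ι : A0 →+* Qb) (hι : ∀ a, ι a ∈ AA) (hπ : AA.valuation (ι π) < 1)
    (hβ : ∀ a, β (algebraMap A0 F a) = algebraMap Qb (FF N) (ι a))
    (hfix : ∀ s ∈ AA.inertiaSubgroupIn ℚ, ∀ f, galF N s (β f) = β f)
    {m : ℕ} {W : F}
    (h₁ : letI := algL (A := A0) F x
      ∀ n : Ideal (SM A0 F), n.IsMaximal → pi π F ∈ n →
        ∃ (y : F) (s t : SM A0 F), y ≠ 0 ∧ s ∉ n ∧ t ∉ n ∧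
          algebraMap (SM A0 F) F s * (y ^ m * W) = algebraMap (SM A0 F) F t)
    (h₂ : letI := algL (A := A0) F x⁻¹
      ∀ n : Ideal (SM A0 F), n.IsMaximal → pi π F ∈ n →
        algebraMap A0[X] (SM A0 F) Polynomial.X ∈ n →
        ∃ (y : F) (s t : SM A0 F), y ≠ 0 ∧ s ∉ n ∧ t ∉ n ∧
          algebraMap (SM A0 F) F s * (y ^ m * W) = algebraMap (SM A0 F) F t) :
    ∃ y u : Place Qb (FF N) → FF N, (∀ v, β W = y v ^ m * u v) ∧
      (∀ s ∈ AA.inertiaSubgroupIn ℚ, ∀ v, galF N s (y v) = y v) ∧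
      (∀ v, AA.valuation (val v (u v)) = 1) ∧
      (∀ s ∈ AA.inertiaSubgroupIn ℚ, ∀ v, y (aG N s • v) = y v) := by
  refine exists_yu_abs (A0 := A0) (O₁ := @SM A0 _ F _ (algL (A := A0) F x))
    (O₂ := @SM A0 _ F _ (algL (A := A0) F x⁻¹)) hq hA β ι hι π hπ ?_ ?_ ?_ hfix h₁ h₂
  · intro a
    rw [← hβ a]
    congr 1
    change algebraMap E F (aeval x (C a : A0[X])) = _
    rw [aeval_C, ← IsScalarTower.algebraMap_apply]
  · intro a
    rw [← hβ a]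
    congr 1
    change algebraMap E F (aeval x⁻¹ (C a : A0[X])) = _
    rw [aeval_C, ← IsScalarTower.algebraMap_apply]
  · rw [← map_inv₀]
    congr 1
    change algebraMap E F (aeval x⁻¹ (X : A0[X])) = (algebraMap E F (aeval x (X : A0[X])))⁻¹
    rw [aeval_X, aeval_X, map_inv₀]

open Fermat.Agent.SS Fermat.Agent.SS.GM2 in
open Fermat.Agent.S44.Cover (LL bc) in
open Fermat.Agent.Crux (A0) in
set_option maxHeartbeats 1000000 in
/-- **(EV) for a Gauss unit at `v_∞` and `v_0`.** -/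
theorem ev_of_gauss (M q e : ℕ) [NeZero M] [NeZero q] (hq : q.Prime) (hqM : ¬ q ∣ M)
    (hadm : Fermat.Agent.Crux.Admissible q M) (he : 0 < e) (he12 : Nat.Coprime e 12)
    {A : ValuationSubring Qb} (hA : A.LiesOverPrime q)
    (w : FF (M * q) →ₐ[Qb] FF (M * q)) (hw : IsAL M q w) (f : Dm (M * q) e)
    (hfI : ∀ s ∈ A.inertiaSubgroupIn ℚ,
      galF (M * q) s ((f : (FF (M * q))ˣ) : FF (M * q)) = ((f : (FF (M * q))ˣ) : FF (M * q)))
    {φ₁ φ₂ : LaurentSeries (kA A)}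
    (h₁ : RedTo A (((f : (FF (M * q))ˣ) : FF (M * q)) : LL) φ₁) (hφ₁ : φ₁ ≠ 0)
    (h₂ : RedTo A ((w ((f : (FF (M * q))ˣ) : FF (M * q)) : FF (M * q)) : LL) φ₂) (hφ₂ : φ₂ ≠ 0) :
    EV (M * q) A q e ((f : (FF (M * q))ˣ) : FF (M * q)) := by
  haveI : NeZero e := ⟨he.ne'⟩
  haveI : Fact q.Prime := ⟨hq⟩
  have hf : ∀ n : ℤ, ((((f : (FF (M * q))ˣ) : FF (M * q)) : LaurentSeries Qb)).coeff n
      ∈ Fermat.Agent.S36.Base.L0 A := by
    intro n
    rw [Fermat.Agent.S36.Base.mem_L0_iff]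
    intro s hs
    have h := congrArg (fun k : FF (M * q) => (k : LaurentSeries Qb).coeff n) (hfI s hs)
    simpa [coe_galF] using h
  obtain ⟨K₀, iN, iD, iFin, wK, W₀, hirr, hK, hwK, hwK', hW₀, hI0, hIinf⟩ :=
    Fermat.Agent.S43.QF.exists_pkg_L0 hq he hA w hw f hf
  obtain ⟨_, F, E, iF, iAF, iE, iE0, iAE, iEF, iT, iFD, Φ, w', X, C, hF⟩ :=
    Fermat.Agent.S43.Q.exists_ctxQ M q hq hqM hadm (IsLocalRing.residue (A0 K₀ A))
      IsLocalRing.residue_surjective (Fermat.Agent.Crux.residue_A0_natCast K₀ A hA)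
      (q : A0 K₀ A) hirr wK hwK (Fermat.Agent.S43.Q.wK_XD hw wK hwK')
  obtain ⟨W, hW, hwW⟩ := hF W₀
  have Cp := Fermat.Agent.S44.Const.Places.compat_A0 A K₀
  have hπ : A.valuation (algebraMap K₀ Qb (algebraMap (A0 K₀ A) K₀ (q : A0 K₀ A))) < 1 := by
    rw [map_natCast, map_natCast, ← ValuationSubring.mem_nonunits_iff]
    exact hA
  obtain ⟨ψ₁, hψ₁, hr₁⟩ := redK_of_redTo C Cp hπ (W := W) (φ := φ₁)
    (by rw [hW]; exact h₁.congr hW₀.symm rfl) hφ₁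
  obtain ⟨ψ₂, hψ₂, hr₂⟩ := redK_of_redTo C Cp hπ (W := w' W) (φ := φ₂)
    (by rw [hwW]; exact h₂.congr (hwK' W₀ _ hW₀.symm) rfl) hφ₂
  have h1 : ((q : ℕ) : A0 K₀ A) = (q : A0 K₀ A) ^ 1 * 1 := by rw [pow_one, mul_one]
  obtain ⟨hl₁, hl₂⟩ := C.loc_both one_pos (one_mul 1) h1 he (by rw [mul_one]; exact he12)
    hr₁ hψ₁ hr₂ hψ₂ (by rw [hW]; exact hI0) (by rw [hW]; exact hIinf)
  obtain ⟨β, hβ⟩ := Fermat.Agent.Crux.GM.exists_Psi (M * q) Φ
    (fun g => (C.S.hΦF _).2 ⟨g, rfl⟩)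
  have hβW : β W = ((f : (FF (M * q))ˣ) : FF (M * q)) := by
    apply Subtype.ext
    rw [hβ, hW]
    exact hW₀
  obtain ⟨y, u, e1, e2, e3, e4⟩ := exists_yu X (q : A0 K₀ A) hq hA β
    ((algebraMap K₀ Qb).comp (algebraMap (A0 K₀ A) K₀)) Cp.mem hπ
    (fun a => by
      apply Subtype.ext
      rw [hβ, C.S.hΦA, Fermat.Agent.S28.Build.coeffMap_C, Fermat.Agent.S28.C_eq_algebraMap]
      rfl)
    (fun s hs g => by
      apply Subtype.ext
      rw [coe_galF, hβ]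
      ext n
      simp only [coeffMap_coeff]
      exact Fermat.Agent.S36.Base.mem_L0_iff.1 (hK ((Φ g).coeff n).2) s hs)
    hl₁ hl₂
  rw [hβW] at e1
  exact ev_of_local hq hA he.ne' y u (fun s hs v _ => e4 s hs v) (fun s hs v _ => e2 s hs v)
    (fun v _ => e1 v) (fun v _ => e3 v)

end Fermat.Agent.S43.EV
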