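import Fermat.Agent.S43.I.Main0
import Fermat.Agent.S43.I.CtxTor
import Fermat.Agent.S43.QF.Slope2
import Fermat.Agent.S43.QF.WT
import Fermat.Agent.S43.Q.EVLoc
import Fermat.Agent.S43.EV.Inst
import Fermat.Agent.S43.EV.EVq

/-!
# S43 / EV / Fin35 : `(EV)` for the data of `Fin.Ctx` (when `p ∣ q² - 1`), and `XBlock`

`QF.S2.exists_unit_rep` + `QF.w_heckeF` → `Q.exists_loc_of_redTo` → `EV.exists_loc_ctx` → `EV.ev_of_local`.
-/

set_option autoImplicit false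

open AlgebraicCurve ModularCurve

namespace Fermat.Agent.S43.EV.F35

open Fermat.Agent.ES Fermat.Agent.SS Fermat.Agent.S43.I

variable {M q p : ℕ} [NeZero M] [NeZero q]

theorem admissible_of_dvd (C : Fin.Ctx M q p) (hpq : p ∣ q ^ 2 - 1) :
    Fermat.Agent.Crux.Admissible q M := by
  refine ⟨fun h3 => ?_, fun h2 => absurd h2 C.hq2⟩
  exfalso
  subst h3
  have h5 := C.hp5
  have hle := Nat.le_of_dvd (by norm_num) hpq
  have h8 : (3 ^ 2 - 1 : ℕ) = 2 ^ 3 := by norm_num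
  rw [h8] at hpq
  have := (Nat.prime_dvd_prime_iff_eq C.hp Nat.prime_two).1 (C.hp.dvd_of_dvd_pow hpq)
  omega

set_option maxHeartbeats 1000000 in
/-- **(EV)** for `C`, when `p ∣ q² - 1`. -/
theorem evf (C : Fin.Ctx M q p) (hpq : p ∣ q ^ 2 - 1) : EVF C := by
  intro z hz
  have hadm := admissible_of_dvd C hpq
  obtain ⟨ℓ, hℓ, hℓS, hℓ'⟩ := C.hnE
  haveI : NeZero ℓ := ⟨hℓ.ne_zero⟩
  have hℓN : ¬ ℓ ∣ M * q := fun h => hℓS (ctx_hNS C ℓ hℓ h)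
  have hcop : IsCoprime (C.a ℓ - ((ℓ : ℤ) + 1)) (p : ℤ) := by
    refine (IsPP.self p).isCoprime_of_not_dvd C.hp ?_
    have e1 : C.a ℓ - ((ℓ : ℤ) + 1) = C.W.apOfModel ℓ - ℓ - 1 := by
      show C.W.apOfModel ℓ - ((ℓ : ℤ) + 1) = _
      ring
    rw [e1]
    exact hℓ'
  have hp12 : Nat.Coprime p 12 := by
    refine (Nat.Prime.coprime_iff_not_dvd C.hp).2 ?_
    intro h
    have h5 := C.hp5
    have h12 : (12 : ℕ) = 2 ^ 2 * 3 := by norm_num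
    rw [h12] at h
    rcases (Nat.Prime.dvd_mul C.hp).1 h with h | h
    · have := (Nat.prime_dvd_prime_iff_eq C.hp Nat.prime_two).1 (C.hp.dvd_of_dvd_pow h)
      omega
    · have := (Nat.prime_dvd_prime_iff_eq C.hp Nat.prime_three).1 h
      omega
  obtain ⟨fz, hfz, hcoef, hfix, φ₁, φ₂, hφ₁, hφ₂, h₁, h₂⟩ :=
    QF.S2.exists_unit_rep C.hq C.hp.ne_zero C.hA C.w ℓ hℓ hℓN hℓS hcop
      (fun f => QF.w_heckeF C.hq C.hqM C.hw hℓ hℓN f) hz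
  refine ⟨fz, hfz, hfix, ?_⟩
  obtain ⟨K₀, iN, iD, iFin, F, E, iF, iAF, iE, iE0, iAE, iEF, iT, iFD, Φ, w', X, W, hK, CQ, hb,
    hl₁, hl₂⟩ := Q.exists_loc_of_redTo M q p C.hq C.hqM hadm C.hp.pos hp12 C.hA C.w C.hw fz hcoef
      h₁ hφ₁ h₂ hφ₂
  have hI : ∀ s ∈ C.A.inertiaSubgroupIn ℚ, ∀ c ∈ K₀, s c = c := fun s hs c hc =>
    Fermat.Agent.S36.Base.mem_L0_iff.1 (hK hc) s hs
  obtain ⟨y, u, hyu, hgal, hval, hperm⟩ := exists_loc_ctx C.hq C.hA hI CQ hl₁ hl₂ hb.symm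
  exact ev_of_local C.hq C.hA C.hp.ne_zero y u (fun s hs v _ => (hperm s hs v).1)
    (fun s hs v _ => (hgal s hs v).1) (fun v _ => hyu v) (fun v _ => (hval v).2)

/-- **XBlock.** -/
theorem xBlock : Fin.XBlock M q p :=
  xBlock_of_ev (fun C => ctx_hTor C) (fun C h => evf C h)

end Fermat.Agent.S43.EV.F35
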