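import Fermat.Agent.S43.EV.Inst
import Fermat.Agent.S43.Q.EVLoc
import Fermat.Agent.S43.I.Main0

/-!
# S43 / EV / Final : **(EV)** assembled      (owner: helper13)

* `ev_of_redTo` : `fz : Dm (M q) e` fixed by inertia, Gauss unit at `v_∞` and `v_0`  ⟹  `KUM.EV (M q) A q e fz`
  (`Q.exists_loc_of_redTo` + `EV.exists_loc_ctx` + `EV.ev_of_local`);
* `SL C`        : the slope statement (L-A) for `C : Fin.Ctx M q p`;
* `evF_of_sl`   : `SL C → I.EVF C`   (for `5 ≤ q`).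
-/

set_option autoImplicit false
set_option linter.unusedSectionVars false

open AlgebraicCurve ModularCurve

namespace Fermat.Agent.S43.EV

open Fermat.Agent.ES Fermat.Agent.SS
open Fermat.Agent.S44.Cover (LL)

/-- coefficients of an inertia-fixed function lie in the inertia field. -/
theorem coeff_mem_L0_of_fixed {N : ℕ} {A : ValuationSubring Qb} {f : FF N}
    (hf : ∀ s ∈ A.inertiaSubgroupIn ℚ, galF N s f = f) (n : ℤ) :
    (f : LaurentSeries Qb).coeff n ∈ Fermat.Agent.S36.Base.L0 A := by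
  rw [Fermat.Agent.S36.Base.mem_L0_iff]
  intro s hs
  have h1 := congrArg (fun y : FF N => (y : LL).coeff n) (hf s hs)
  simp only [coe_galF, coeffMap_coeff] at h1
  exact h1

/-- **(EV) for a vertical unit.** -/
theorem ev_of_redTo (M q e : ℕ) [NeZero M] [NeZero q] (hq : q.Prime) (hqM : ¬ q ∣ M)
    (hadm : Fermat.Agent.Crux.Admissible q M) (he : 0 < e) (he12 : Nat.Coprime e 12)
    {A : ValuationSubring Qb} (hA : A.LiesOverPrime q)
    (w : FF (M * q) →ₐ[Qb] FF (M * q)) (hw : IsAL M q w) (fz : Dm (M * q) e)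
    (hfix : ∀ s ∈ A.inertiaSubgroupIn ℚ,
      galF (M * q) s ((fz : (FF (M * q))ˣ) : FF (M * q)) = ((fz : (FF (M * q))ˣ) : FF (M * q)))
    {φ₁ φ₂ : LaurentSeries (kA A)}
    (h₁ : RedTo A (((fz : (FF (M * q))ˣ) : FF (M * q)) : LaurentSeries Qb) φ₁) (hφ₁ : φ₁ ≠ 0)
    (h₂ : RedTo A ((w ((fz : (FF (M * q))ˣ) : FF (M * q)) : FF (M * q)) : LaurentSeries Qb) φ₂)
    (hφ₂ : φ₂ ≠ 0) :
    KUM.EV (M * q) A q e ((fz : (FF (M * q))ˣ) : FF (M * q)) := by
  obtain ⟨K₀, iN, iD, iFin, F, E, iF, iAF, iE, iE0, iAE, iEF, iT, iFD, Φ, w', X, W, hK, C, hb,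
    hl1, hl2⟩ := Fermat.Agent.S43.Q.exists_loc_of_redTo M q e hq hqM hadm he he12 hA w hw fz
      (coeff_mem_L0_of_fixed hfix) h₁ hφ₁ h₂ hφ₂
  obtain ⟨y, u, h1, h2, h3, h4⟩ := exists_loc_ctx hq hA
    (fun s hs c hc => Fermat.Agent.S36.Base.mem_L0_iff.mp (hK hc) s hs) C hl1 hl2
    (fz := ((fz : (FF (M * q))ˣ) : FF (M * q))) hb.symm
  exact ev_of_local hq hA he.ne' y u (fun s hs v _ => (h4 s hs v).1)
    (fun s hs v _ => (h2 s hs v).1) (fun v _ => h1 v) (fun v _ => (h3 v).2)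

variable {M q p : ℕ} [NeZero M] [NeZero q]

/-- the slope statement (L-A): every inertia invariant class of the `θ`-part has an inertia-fixed representative which is a
Gauss unit at `v_∞` and at `v_0`. -/
def SL (C : Fin.Ctx M q p) : Prop :=
  ∀ z ∈ I.Inv (M * q) (I.ctx_hNS C) C.a C.A p, ∃ fz : Dm (M * q) p, Kum.mk fz = z ∧
    (∀ s ∈ C.A.inertiaSubgroupIn ℚ,
      galF (M * q) s ((fz : (FF (M * q))ˣ) : FF (M * q)) = ((fz : (FF (M * q))ˣ) : FF (M * q))) ∧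
    ∃ φ₁ φ₂ : LaurentSeries (kA C.A), φ₁ ≠ 0 ∧ φ₂ ≠ 0 ∧
      RedTo C.A (((fz : (FF (M * q))ˣ) : FF (M * q)) : LaurentSeries Qb) φ₁ ∧
      RedTo C.A ((C.w ((fz : (FF (M * q))ˣ) : FF (M * q)) : FF (M * q)) : LaurentSeries Qb) φ₂

theorem coprime_twelve (C : Fin.Ctx M q p) : Nat.Coprime p 12 := by
  have h5 := C.hp5
  have h2 : Nat.Coprime p 2 := (Nat.coprime_primes C.hp Nat.prime_two).2 (by omega)
  have h3 : Nat.Coprime p 3 := (Nat.coprime_primes C.hp Nat.prime_three).2 (by omega)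
  have : (12 : ℕ) = 2 * 2 * 3 := by norm_num
  rw [this]
  exact (h2.mul_right h2).mul_right h3

/-- **(EV) from the slope statement.** -/
theorem evF_of_sl (C : Fin.Ctx M q p) (hadm : Fermat.Agent.Crux.Admissible q M) (h : SL C) :
    I.EVF C := by
  intro z hz
  obtain ⟨fz, hfz, hfix, φ₁, φ₂, hφ₁, hφ₂, h₁, h₂⟩ := h z hz
  exact ⟨fz, hfz, hfix, ev_of_redTo M q p C.hq C.hqM hadm C.hp.pos (coprime_twelve C) C.hA C.w C.hw
    fz hfix h₁ hφ₁ h₂ hφ₂⟩

end Fermat.Agent.S43.EV
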