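import Fermat.Agent.S44.Eis.Red
import Fermat.Agent.S36.Base.DescentL0

/-!
# S43 / EV / Slope0 : a representative which is a Gauss unit at `v_∞` and at `v_0`  (leaf (L-A) of (EV), short route)

`z ∈ Kum N p` fixed by `I_A`, killed by a power of `T_ℓ - a`, `p ∤ a - ℓ - 1`.  Then `z = (T_ℓ - ℓ - 1) z₁` with `z₁` fixed by `I_A`;
`f₁` an `I_A`-fixed representative of `z₁`;  `fz := T_ℓ f₁ / f₁ ^ (ℓ + 1)` is an `I_A`-fixed representative of `z`, and it has a nonzero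
reduction WITHOUT any constant, and so has `w fz` for every `w` commuting with `T_ℓ` on functions.
-/

set_option autoImplicit false
set_option linter.unusedSectionVars false

open ModularCurve

namespace Fermat.Agent.S43.EV

open Fermat.Agent.ES Fermat.Agent.SS Fermat.Agent.S44.Eis

variable {N p ℓ : ℕ} [NeZero N] [NeZero ℓ]

/-- `T_ℓ - ℓ - 1` is onto on the invariants of the generalized eigenspace. -/
theorem exists_preimage (hp : p.Prime) (G : Subgroup GQ) (hℓ : ℓ.Prime) (hℓN : ¬ ℓ ∣ N) (al : ℤ)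
    (hnE : ¬ (p : ℤ) ∣ al - ℓ - 1) (n : ℕ) :
    ∀ z : Kum N p, (∀ s ∈ G, galKum N p s z = z) →
      (heckeKum N ℓ hℓ hℓN p - al • AddMonoidHom.id (Kum N p))^[n] z = 0 →
      ∃ z₁ : Kum N p, (∀ s ∈ G, galKum N p s z₁ = z₁) ∧
        heckeKum N ℓ hℓ hℓN p z₁ - (ℓ + 1) • z₁ = z := by
  have hcop : IsCoprime (p : ℤ) (al - ℓ - 1) :=
    (Prime.coprime_iff_not_dvd (Nat.prime_iff_prime_int.1 hp)).2 hnE
  obtain ⟨a', b', hab⟩ := hcop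
  have hkill : ∀ x : Kum N p, (b' * (al - ℓ - 1)) • x = x := by
    intro x
    have h1 : (b' * (al - ℓ - 1)) = 1 - a' * p := by linarith
    rw [h1, sub_smul, one_smul, mul_smul, natCast_zsmul, Kum.nsmul_eq_zero, smul_zero, sub_zero]
  induction n with
  | zero =>
    intro z _ hz
    refine ⟨0, fun s _ => map_zero _, ?_⟩
    rw [Function.iterate_zero, id] at hz
    rw [hz, map_zero, smul_zero, sub_zero]
  | succ n ih =>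
    intro z hzI hz
    rw [Function.iterate_succ_apply] at hz
    set t := (heckeKum N ℓ hℓ hℓN p - al • AddMonoidHom.id (Kum N p)) with ht
    have htz : t z = heckeKum N ℓ hℓ hℓN p z - al • z := rfl
    obtain ⟨z', hz'I, hz'⟩ := ih (t z) (by
      intro s hs
      rw [htz, map_sub, map_zsmul, galKum_heckeKum, hzI s hs]) hz
    refine ⟨b' • (z - z'), fun s hs => by rw [map_zsmul, map_sub, hzI s hs, hz'I s hs], ?_⟩
    have h1 : heckeKum N ℓ hℓ hℓN p (z - z') - (ℓ + 1) • (z - z') = (al - ℓ - 1) • z := by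
      rw [map_sub, smul_sub]
      have h2 : heckeKum N ℓ hℓ hℓN p z' = t z + (ℓ + 1) • z' := by rw [← hz']; abel
      rw [h2, htz, sub_smul, sub_smul, one_smul, natCast_zsmul, add_smul ℓ 1 z, one_smul]
      abel
    rw [map_zsmul, smul_comm, ← smul_sub, h1, ← mul_smul, hkill]

theorem redTo_quot {q : ℕ} (hq : q.Prime) {A : ValuationSubring Qb} (hA : A.LiesOverPrime q)
    (hℓ : ℓ.Prime) (hℓq : ℓ ≠ q) (f : FF N) (hf : f ≠ 0) :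
    ∃ φ : LaurentSeries (kA A), φ ≠ 0 ∧
      RedTo A (heckeSer ℓ (f : LaurentSeries Qb) * ((f : LaurentSeries Qb) ^ (ℓ + 1))⁻¹) φ := by
  obtain ⟨c, r, hc, hr, h⟩ := exists_redTo A f hf
  obtain ⟨ζ, hζ⟩ := Fermat.Agent.ES.exists_primitiveRoot_Qb ℓ
  obtain ⟨ξ, hξ⟩ := exists_primitiveRoot_kA hq hA hℓ hℓq
  have h1 := RedTo.heckeSer hq hA hℓ hℓq h
  have h2 := (h.pow (ℓ + 1)).inv (pow_ne_zero _ hr)
  refine ⟨heckeSer ℓ r * (r ^ (ℓ + 1))⁻¹,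
    mul_ne_zero (heckeSer_ne_zero hξ hr) (inv_ne_zero (pow_ne_zero _ hr)), (h1.mul h2).congr ?_ rfl⟩
  rw [Fermat.Agent.ES.heckeSer_mul ℓ hζ, heckeSer_cst, mul_pow, mul_inv]
  have hc' : cst (c ^ (ℓ + 1)) = cst c ^ (ℓ + 1) := by rw [cst, cst, map_pow]
  have hc0 : cst c ^ (ℓ + 1) ≠ 0 := by
    apply pow_ne_zero
    rw [cst, Ne, map_eq_zero]
    exact hc
  rw [hc']
  field_simp

/-- **(L-A)**: the representative. -/
theorem exists_gauss_rep {q : ℕ} (hp : p.Prime) (hq : q.Prime) {A : ValuationSubring Qb}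
    (hA : A.LiesOverPrime q) (hℓ : ℓ.Prime) (hℓN : ¬ ℓ ∣ N) (hℓq : ℓ ≠ q) (al : ℤ)
    (hnE : ¬ (p : ℤ) ∣ al - ℓ - 1) (w : FF N →ₐ[Qb] FF N)
    (hwT : ∀ f : FF N, w (heckeF N ℓ hℓ hℓN f) = heckeF N ℓ hℓ hℓN (w f))
    (z : Kum N p) (hzI : ∀ s ∈ A.inertiaSubgroupIn ℚ, galKum N p s z = z) (n : ℕ)
    (hz : (heckeKum N ℓ hℓ hℓN p - al • AddMonoidHom.id (Kum N p))^[n] z = 0) :
    ∃ fz : Dm N p, Kum.mk fz = z ∧
      (∀ s ∈ A.inertiaSubgroupIn ℚ, galF N s ((fz : (FF N)ˣ) : FF N) = ((fz : (FF N)ˣ) : FF N)) ∧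
      ∃ φ₁ φ₂ : LaurentSeries (kA A), φ₁ ≠ 0 ∧ φ₂ ≠ 0 ∧
        RedTo A ((((fz : (FF N)ˣ) : FF N)) : LaurentSeries Qb) φ₁ ∧
        RedTo A ((w ((fz : (FF N)ˣ) : FF N) : FF N) : LaurentSeries Qb) φ₂ := by
  obtain ⟨z₁, hz₁I, hz₁⟩ := exists_preimage hp (A.inertiaSubgroupIn ℚ) hℓ hℓN al hnE n z hzI hz
  obtain ⟨f₁, hf₁, hf₁I⟩ := Fermat.Agent.S36.Base.exists_rep_fixed N p hp.ne_zero
    (A.inertiaSubgroupIn ℚ) z₁ hz₁I
  set fz : Dm N p := ⟨heckeU N ℓ hℓ hℓN f₁, heckeU_mem_Dm N ℓ hℓ hℓN f₁.2⟩ * (f₁ ^ (ℓ + 1))⁻¹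
    with hfz
  have hcoe : ((fz : (FF N)ˣ) : FF N)
      = heckeF N ℓ hℓ hℓN ((f₁ : (FF N)ˣ) : FF N) * (((f₁ : (FF N)ˣ) : FF N) ^ (ℓ + 1))⁻¹ := by
    rw [hfz]
    simp
  have hf₁0 : ((f₁ : (FF N)ˣ) : FF N) ≠ 0 := (f₁ : (FF N)ˣ).ne_zero
  refine ⟨fz, ?_, ?_, ?_⟩
  · rw [hfz, Kum.mk_mul, Kum.mk_inv, Kum.mk_pow, ← heckeKum_mk, hf₁, ← sub_eq_add_neg, hz₁]
  · intro s hs
    have h1 : galF N s (heckeF N ℓ hℓ hℓN ((f₁ : (FF N)ˣ) : FF N))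
        = heckeF N ℓ hℓ hℓN (galF N s ((f₁ : (FF N)ˣ) : FF N)) :=
      congrArg (fun u : (FF N)ˣ => (u : FF N)) (galU_heckeU N ℓ hℓ hℓN s (f₁ : (FF N)ˣ))
    rw [hcoe, map_mul, map_inv₀, map_pow, h1, hf₁I s hs]
  · obtain ⟨φ₁, hφ₁, h₁⟩ := redTo_quot hq hA hℓ hℓq ((f₁ : (FF N)ˣ) : FF N) hf₁0
    have hw0 : w ((f₁ : (FF N)ˣ) : FF N) ≠ 0 := by
      rw [Ne, map_eq_zero]; exact hf₁0
    obtain ⟨φ₂, hφ₂, h₂⟩ := redTo_quot hq hA hℓ hℓq (w ((f₁ : (FF N)ˣ) : FF N)) hw0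
    refine ⟨φ₁, φ₂, hφ₁, hφ₂, h₁.congr ?_ rfl, h₂.congr ?_ rfl⟩
    · rw [hcoe]; rfl
    · rw [hcoe, map_mul, map_inv₀, map_pow, hwT]; rfl

end Fermat.Agent.S43.EV
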